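import Mathlib
import Fermat.Prelude.Def_EllipticCurve_FrobeniusTrace

/-!
# Existence of Frobenius elements in `Gal(ℚ̄/ℚ)`

Main result: `Fermat.Agent.Lib.FrobeniusExists.exists_frobenius`:
for every prime `ℓ` there are a valuation subring `A` of `AlgebraicClosure ℚ` lying over `ℓ`
and `σ ∈ Gal(ℚ̄/ℚ)` which is a Frobenius element at `A`.
More precisely (`exists_isFrobeniusAt`) every valuation subring lying over `ℓ` has a Frobenius element.
-/

set_option autoImplicit false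
set_option linter.style.haveILetI false

open scoped Pointwise
open Polynomial

namespace Fermat.Agent.Lib.FrobeniusExists

section General

variable {K : Type*} [Field K] (A : ValuationSubring K)

theorem mul_mem_nonunits_of_mem {x y : K} (hx : x ∈ A) (hy : y ∈ A.nonunits) :
    x * y ∈ A.nonunits := by
  rw [ValuationSubring.mem_nonunits_iff] at hy ⊢
  rw [map_mul]
  have hx' : A.valuation x ≤ 1 := (A.valuation_le_one_iff x).mpr hx
  calc A.valuation x * A.valuation y ≤ 1 * A.valuation y := mul_le_mul_left hx' _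
    _ = A.valuation y := one_mul _
    _ < 1 := hy

theorem inv_mem_of_not_mem_nonunits {x : K} (hx : x ∉ A.nonunits) : x⁻¹ ∈ A := by
  rw [ValuationSubring.mem_nonunits_iff_or] at hx
  push Not at hx
  exact hx.2

theorem isIntegral_int_mem {x : K} (hx : IsIntegral ℤ x) : x ∈ A := by
  have h1 : IsIntegral A x := hx.tower_top
  obtain ⟨y, rfl⟩ := IsIntegrallyClosed.algebraMap_eq_of_integral h1
  exact y.2

/-- Horner-type induction: if `x ∈ A` is a root of a polynomial with coefficients integral over `ℤ`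
one of whose coefficients is a unit of `A`, then `s * x` is integral for some integral `s`
which is a unit of `A`. -/
theorem exists_unit_integral_mul_aux {x : K} (hx : x ∈ A) (n : ℕ) :
    ∀ g : (integralClosure ℤ K)[X], g.natDegree ≤ n → aeval x g = 0 →
      (∃ i, ((g.coeff i : integralClosure ℤ K) : K) ∉ A.nonunits) →
      ∃ s : integralClosure ℤ K, (s : K) ∉ A.nonunits ∧ IsIntegral ℤ ((s : K) * x) := by
  induction n with
  | zero =>
    intro g hg hgx ⟨i, hi⟩
    exfalso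
    rw [Polynomial.eq_C_of_natDegree_le_zero hg, aeval_C] at hgx
    have h0 : g.coeff 0 = 0 := by
      have : ((g.coeff 0 : integralClosure ℤ K) : K) = 0 := hgx
      exact_mod_cast this
    have hi0 : g.coeff i = 0 := by
      rw [Polynomial.eq_C_of_natDegree_le_zero hg, coeff_C]
      split_ifs
      · exact h0
      · rfl
    apply hi
    rw [hi0]
    exact A.nonunits.zero_mem
  | succ n ih =>
    intro g hg hgx ⟨i, hi⟩
    by_cases hdeg : g.natDegree ≤ n
    · exact ih g hdeg hgx ⟨i, hi⟩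
    have hdeg' : g.natDegree = n + 1 := le_antisymm hg (Nat.lt_of_not_le hdeg)
    have hint : IsIntegral ℤ ((g.leadingCoeff : K) * x) := by
      have h1 : IsIntegral (integralClosure ℤ K) (g.leadingCoeff • x) :=
        isIntegral_leadingCoeff_smul g x hgx
      have h2 : IsIntegral ℤ (g.leadingCoeff • x) := isIntegral_trans _ h1
      rwa [Subalgebra.smul_def, smul_eq_mul] at h2
    by_cases hc : ((g.leadingCoeff : integralClosure ℤ K) : K) ∈ A.nonunits
    · -- leading coefficient is a nonunit: lower the degree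
      let t : integralClosure ℤ K := ⟨(g.leadingCoeff : K) * x, hint⟩
      have ht : (t : K) ∈ A.nonunits := by
        show (g.leadingCoeff : K) * x ∈ A.nonunits
        rw [mul_comm]
        exact mul_mem_nonunits_of_mem A hx hc
      let g₁ : (integralClosure ℤ K)[X] := g.eraseLead + C t * X ^ n
      have hg₁deg : g₁.natDegree ≤ n := by
        refine (natDegree_add_le _ _).trans (max_le ?_ (natDegree_C_mul_X_pow_le _ _))
        have := eraseLead_natDegree_le g
        omega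
      have hg₁x : aeval x g₁ = 0 := by
        have h3 : aeval x g = aeval x g.eraseLead + (g.leadingCoeff : K) * x ^ (n + 1) := by
          conv_lhs => rw [← eraseLead_add_C_mul_X_pow g, hdeg']
          simp only [map_add, map_mul, aeval_C, map_pow, aeval_X]
          rfl
        have h4 : aeval x g₁ = aeval x g.eraseLead + ((g.leadingCoeff : K) * x) * x ^ n := by
          simp only [g₁, map_add, map_mul, aeval_C, map_pow, aeval_X]
          rfl
        rw [h4, ← hgx, h3]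
        ring
      have hi_ne : i ≠ g.natDegree := by
        rintro rfl
        exact hi hc
      have hcoeff : g₁.coeff i = g.coeff i + (if i = n then t else 0) := by
        simp only [g₁, coeff_add, coeff_C_mul_X_pow, eraseLead_coeff_of_ne i hi_ne]
      have hg₁i : ((g₁.coeff i : integralClosure ℤ K) : K) ∉ A.nonunits := by
        intro hmem
        apply hi
        have h5 : ((g.coeff i : integralClosure ℤ K) : K) =
            ((g₁.coeff i : integralClosure ℤ K) : K) -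
              (((if i = n then t else 0 : integralClosure ℤ K)) : K) := by
          rw [hcoeff]; push_cast; ring
        rw [h5]
        refine A.nonunits.sub_mem hmem ?_
        split_ifs
        · exact ht
        · exact A.nonunits.zero_mem
      exact ih g₁ hg₁deg hg₁x ⟨i, hg₁i⟩
    · exact ⟨g.leadingCoeff, hc, hint⟩

theorem one_not_mem_nonunits : (1 : K) ∉ A.nonunits := by
  rw [ValuationSubring.mem_nonunits_iff, map_one]
  exact lt_irrefl _

theorem intCast_not_mem_nonunits {ℓ : ℕ} (hℓ : ℓ.Prime) (hA : (ℓ : K) ∈ A.nonunits)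
    {a : ℤ} (ha : ¬ (ℓ : ℤ) ∣ a) : (a : K) ∉ A.nonunits := by
  intro hmem
  have hcop : IsCoprime (ℓ : ℤ) a :=
    (Nat.prime_iff_prime_int.mp hℓ).irreducible.coprime_iff_not_dvd.mpr ha
  obtain ⟨u, v, huv⟩ := hcop
  have h1 : ((u : ℤ) : K) * (ℓ : K) + ((v : ℤ) : K) * (a : K) = 1 := by
    have := congrArg (Int.cast : ℤ → K) huv
    push_cast at this
    exact this
  apply one_not_mem_nonunits A
  rw [← h1]
  exact A.nonunits.add_mem (mul_mem_nonunits_of_mem A (intCast_mem A u) hA)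
    (mul_mem_nonunits_of_mem A (intCast_mem A v) hmem)

/-- Every element of a valuation subring `A` lying over a prime `ℓ`, algebraic over `ℤ`, is a
quotient `b / s` of integral elements with `s` a unit of `A`. -/
theorem exists_unit_integral_mul [CharZero K] {ℓ : ℕ} (hℓ : ℓ.Prime)
    (hA : (ℓ : K) ∈ A.nonunits) {x : K} (hx : x ∈ A) (halg : IsAlgebraic ℤ x) :
    ∃ s : K, IsIntegral ℤ s ∧ s ∉ A.nonunits ∧ IsIntegral ℤ (s * x) := by
  obtain ⟨f, hf0, hfx⟩ := halg
  have hg0x : aeval x f.primPart = 0 := aeval_primPart_eq_zero hf0 hfx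
  have hprim : f.primPart.IsPrimitive := isPrimitive_primPart f
  have hex : ∃ i, ¬ (ℓ : ℤ) ∣ f.primPart.coeff i := by
    by_contra hcon
    push Not at hcon
    have hdvd : C (ℓ : ℤ) ∣ f.primPart := (C_dvd_iff_dvd_coeff _ _).mpr hcon
    have hunit : IsUnit (ℓ : ℤ) := hprim _ hdvd
    exact (Nat.prime_iff_prime_int.mp hℓ).not_isUnit hunit
  obtain ⟨i, hi⟩ := hex
  let g : (integralClosure ℤ K)[X] := f.primPart.map (algebraMap ℤ (integralClosure ℤ K))
  have hgx : aeval x g = 0 := by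
    rw [aeval_map_algebraMap]; exact hg0x
  have hgi : ((g.coeff i : integralClosure ℤ K) : K) ∉ A.nonunits := by
    have : ((g.coeff i : integralClosure ℤ K) : K) = ((f.primPart.coeff i : ℤ) : K) := by
      simp [g, coeff_map]
    rw [this]
    exact intCast_not_mem_nonunits A hℓ hA hi
  obtain ⟨s, hs, hsx⟩ := exists_unit_integral_mul_aux A hx g.natDegree g le_rfl hgx ⟨i, hgi⟩
  exact ⟨s, s.2, hs, hsx⟩

end General

section Galois

/-- `ℚ̄`. -/
abbrev Qb : Type := AlgebraicClosure ℚ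

/-- `Gal(ℚ̄/ℚ)`. -/
abbrev GQ : Type := AlgebraicClosure ℚ ≃ₐ[ℚ] AlgebraicClosure ℚ

/-- `ℤ̄`, the ring of all algebraic integers. -/
noncomputable abbrev Zb : Subalgebra ℤ Qb := integralClosure ℤ Qb

theorem isAlgebraic_Qb : Algebra.IsAlgebraic ℚ Qb := AlgebraicClosure.isAlgebraic ℚ

theorem isAlgClosure_Qb : IsAlgClosure ℚ Qb :=
  haveI := isAlgebraic_Qb
  ⟨inferInstance, inferInstance⟩

theorem isGalois_Qb : IsGalois ℚ Qb :=
  haveI := isAlgClosure_Qb
  inferInstance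

attribute [local instance] isAlgebraic_Qb isAlgClosure_Qb isGalois_Qb

/-- The Galois action on the ring of algebraic integers. -/
@[reducible] noncomputable def galActionZb : MulSemiringAction GQ Zb where
  smul g b := ⟨g b.1, map_isIntegral_int g b.2⟩
  one_smul _ := Subtype.ext rfl
  mul_smul _ _ _ := Subtype.ext rfl
  smul_zero g := Subtype.ext (map_zero g)
  smul_add g _ _ := Subtype.ext (map_add g _ _)
  smul_one g := Subtype.ext (map_one g)
  smul_mul g _ _ := Subtype.ext (map_mul g _ _)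

attribute [local instance] galActionZb

theorem coe_smul_Zb (g : GQ) (b : Zb) : ((g • b : Zb) : Qb) = g (b : Qb) := rfl

theorem smulCommClass_Zb : SMulCommClass GQ ℤ Zb where
  smul_comm g n b := Subtype.ext (by
    show g ((n • b : Zb) : Qb) = ((n • (g • b) : Zb) : Qb)
    simp)

attribute [local instance] smulCommClass_Zb

theorem isInvariant_Zb : Algebra.IsInvariant ℤ Zb GQ where
  isInvariant b hb := by
    have h1 : (b : Qb) ∈ (⊥ : IntermediateField ℚ Qb) := by
      rw [InfiniteGalois.mem_bot_iff_fixed]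
      intro g
      exact congrArg Subtype.val (hb g)
    obtain ⟨r, hr⟩ := IntermediateField.mem_bot.mp h1
    have h2 : IsIntegral ℤ r := by
      have : IsIntegral ℤ (algebraMap ℚ Qb r) := hr ▸ b.2
      exact (isIntegral_algebraMap_iff (algebraMap ℚ Qb).injective).mp this
    obtain ⟨a, ha⟩ := IsIntegrallyClosed.algebraMap_eq_of_integral h2
    refine ⟨a, Subtype.ext ?_⟩
    rw [← hr, ← ha]
    simp

attribute [local instance] isInvariant_Zb

theorem continuousSMul_Zb : @ContinuousSMul GQ Zb _ _ ⊥ := by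
  letI : TopologicalSpace Zb := ⊥
  haveI : DiscreteTopology Zb := ⟨rfl⟩
  rw [continuousSMul_iff_stabilizer_isOpen]
  intro b
  have h : (MulAction.stabilizer GQ b : Set GQ) = (MulAction.stabilizer GQ (b : Qb) : Set GQ) := by
    ext g
    simp only [SetLike.mem_coe, MulAction.mem_stabilizer_iff, Subtype.ext_iff, coe_smul_Zb,
      AlgEquiv.smul_def]
  rw [h]
  exact stabilizer_isOpen_of_isIntegral (b : Qb)

/-- `ℓ`-th roots exist in `ℤ̄`. -/
theorem exists_pow_eq_Zb (b : Zb) {n : ℕ} (hn : 0 < n) : ∃ c : Zb, c ^ n = b := by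
  obtain ⟨z, hz⟩ := IsAlgClosed.exists_pow_nat_eq (b : Qb) hn
  have hzint : IsIntegral ℤ z := IsIntegral.of_pow hn (hz ▸ b.2)
  exact ⟨⟨z, hzint⟩, Subtype.ext hz⟩

section Frob

variable (Q : Ideal Zb) [Q.IsPrime] (P : Ideal ℤ) [Q.LiesOver P] (ℓ : ℕ) [Fact ℓ.Prime]

theorem charP_quot (hℓQ : (ℓ : Zb) ∈ Q) : CharP (Zb ⧸ Q) ℓ := by
  rw [CharP.charP_iff_prime_eq_zero (Fact.out : ℓ.Prime)]
  have : ((ℓ : Zb ⧸ Q)) = Ideal.Quotient.mk Q (ℓ : Zb) := by simp
  rw [this, Ideal.Quotient.eq_zero_iff_mem]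
  exact hℓQ

theorem pow_eq_self_quot_int (hℓP : (ℓ : ℤ) ∈ P) (a : ℤ ⧸ P) : a ^ ℓ = a := by
  obtain ⟨n, rfl⟩ := Ideal.Quotient.mk_surjective a
  rw [← map_pow, Ideal.Quotient.eq]
  have hdvd : (ℓ : ℤ) ∣ n ^ ℓ - n := by
    rw [← ZMod.intCast_zmod_eq_zero_iff_dvd]
    push_cast
    rw [ZMod.pow_card, sub_self]
  obtain ⟨k, hk⟩ := hdvd
  rw [hk]
  exact P.mul_mem_right _ hℓP

/-- The Frobenius `x ↦ x ^ ℓ` as an automorphism of `ℤ̄ ⧸ Q` over `ℤ ⧸ P`. -/
noncomputable def frobAlgEquiv (hℓQ : (ℓ : Zb) ∈ Q) (hℓP : (ℓ : ℤ) ∈ P) :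
    (Zb ⧸ Q) ≃ₐ[ℤ ⧸ P] (Zb ⧸ Q) :=
  haveI := charP_quot Q ℓ hℓQ
  AlgEquiv.ofBijective
    ({ frobenius (Zb ⧸ Q) ℓ with
        commutes' := fun a => by
          show (algebraMap (ℤ ⧸ P) (Zb ⧸ Q) a) ^ ℓ = algebraMap (ℤ ⧸ P) (Zb ⧸ Q) a
          rw [← map_pow, pow_eq_self_quot_int P ℓ hℓP] } : (Zb ⧸ Q) →ₐ[ℤ ⧸ P] (Zb ⧸ Q))
    ⟨frobenius_inj (Zb ⧸ Q) ℓ, fun y => by
      obtain ⟨b, rfl⟩ := Ideal.Quotient.mk_surjective y
      obtain ⟨c, hc⟩ := exists_pow_eq_Zb b (Fact.out : ℓ.Prime).pos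
      refine ⟨Ideal.Quotient.mk Q c, ?_⟩
      show (Ideal.Quotient.mk Q c) ^ ℓ = _
      rw [← map_pow, hc]⟩

theorem frobAlgEquiv_apply (hℓQ : (ℓ : Zb) ∈ Q) (hℓP : (ℓ : ℤ) ∈ P) (y : Zb ⧸ Q) :
    frobAlgEquiv Q P ℓ hℓQ hℓP y = y ^ ℓ := rfl

end Frob

/-- Every element of `ℚ̄` is algebraic over `ℤ`. -/
theorem isAlgebraic_int_Qb (x : Qb) : IsAlgebraic ℤ x :=
  (IsFractionRing.isAlgebraic_iff ℤ ℚ Qb).mpr (Algebra.IsAlgebraic.isAlgebraic x)

/-- A Galois element stabilising the centre `Q` of `A` on `ℤ̄` maps `A` into itself. -/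
theorem map_mem_of_stab (A : ValuationSubring Qb) {ℓ : ℕ} (hℓ : ℓ.Prime)
    (hA : (ℓ : Qb) ∈ A.nonunits) (τ : GQ)
    (hτ : ∀ b : Qb, IsIntegral ℤ b → b ∉ A.nonunits → τ b ∉ A.nonunits)
    {x : Qb} (hx : x ∈ A) : τ x ∈ A := by
  obtain ⟨s, hs, hsA, hsx⟩ := exists_unit_integral_mul A hℓ hA hx (isAlgebraic_int_Qb x)
  have hs0 : s ≠ 0 := fun h => hsA (h ▸ A.nonunits.zero_mem)
  have h1 : τ x = τ (s * x) * (τ s)⁻¹ := by
    rw [map_mul]
    have : τ s ≠ 0 := (_root_.map_ne_zero τ).mpr hs0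
    field_simp
  rw [h1]
  exact A.mul_mem _ _ (isIntegral_int_mem A (map_isIntegral_int τ hsx))
    (inv_mem_of_not_mem_nonunits A (hτ s hs hsA))

/-- **Existence of Frobenius elements**: every valuation subring of `ℚ̄` lying over a prime `ℓ`
has a Frobenius element in `Gal(ℚ̄/ℚ)`. -/
theorem exists_isFrobeniusAt (A : ValuationSubring (AlgebraicClosure ℚ)) {ℓ : ℕ} (hℓ : ℓ.Prime)
    (hA : A.LiesOverPrime ℓ) :
    ∃ σ : AlgebraicClosure ℚ ≃ₐ[ℚ] AlgebraicClosure ℚ, A.IsFrobeniusAt σ ℓ := by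
  haveI : Fact ℓ.Prime := ⟨hℓ⟩
  have hA' : (ℓ : Qb) ∈ A.nonunits := hA
  have hle : ∀ b : Zb, (b : Qb) ∈ A := fun b => isIntegral_int_mem A b.2
  let ι : Zb →+* A :=
    { toFun := fun b => ⟨b, hle b⟩
      map_one' := rfl
      map_mul' := fun _ _ => rfl
      map_zero' := rfl
      map_add' := fun _ _ => rfl }
  let Q : Ideal Zb := (IsLocalRing.maximalIdeal A).comap ι
  have hQmem : ∀ b : Zb, b ∈ Q ↔ (b : Qb) ∈ A.nonunits := fun b => by
    rw [Ideal.mem_comap]
    exact (A.coe_mem_nonunits_iff (a := ι b)).symm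
  haveI : Q.IsPrime := Ideal.comap_isPrime ι _
  let P : Ideal ℤ := Q.under ℤ
  haveI : Q.LiesOver P := ⟨rfl⟩
  have hℓQ : (ℓ : Zb) ∈ Q := by
    rw [hQmem]
    simpa using hA'
  have hℓP : (ℓ : ℤ) ∈ P := by
    show algebraMap ℤ Zb (ℓ : ℤ) ∈ Q
    simpa using hℓQ
  letI : TopologicalSpace Zb := ⊥
  haveI : DiscreteTopology Zb := ⟨rfl⟩
  haveI : ContinuousSMul GQ Zb := continuousSMul_Zb
  obtain ⟨σ', hσ'⟩ := Ideal.Quotient.stabilizerHom_surjective_of_profinite (G := GQ) P Q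
    (frobAlgEquiv Q P ℓ hℓQ hℓP)
  -- the basic congruence
  have hcong : ∀ b : Zb, ((σ'.1 (b : Qb)) - (b : Qb) ^ ℓ) ∈ A.nonunits := by
    intro b
    have h1 := congrArg (fun f => f (Ideal.Quotient.mk Q b)) hσ'
    simp only [Ideal.Quotient.stabilizerHom_apply, frobAlgEquiv_apply] at h1
    rw [← map_pow, Ideal.Quotient.eq, hQmem] at h1
    exact h1
  -- σ' and its inverse preserve the complement of `Q`
  have hstab : ∀ τ : GQ, τ ∈ MulAction.stabilizer GQ Q →
      ∀ b : Qb, IsIntegral ℤ b → b ∉ A.nonunits → τ b ∉ A.nonunits := by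
    intro τ hτ b hb hbA hmem
    apply hbA
    have h2 : (⟨τ b, map_isIntegral_int τ hb⟩ : Zb) ∈ Q := (hQmem _).mpr hmem
    have h3 : (τ • (⟨b, hb⟩ : Zb)) ∈ τ • Q := by
      rw [MulAction.mem_stabilizer_iff.mp hτ]; exact h2
    rw [Ideal.smul_mem_pointwise_smul_iff] at h3
    exact (hQmem _).mp h3
  have hσmem : ∀ x : Qb, x ∈ A → σ'.1 x ∈ A := fun x hx =>
    map_mem_of_stab A hℓ hA' σ'.1 (hstab σ'.1 σ'.2) hx
  have hσinvmem : ∀ x : Qb, x ∈ A → (σ'.1⁻¹ : GQ) x ∈ A := fun x hx =>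
    map_mem_of_stab A hℓ hA' _ (hstab _ (inv_mem σ'.2)) hx
  have hdec : σ'.1 ∈ A.decompositionSubgroup ℚ := by
    rw [MulAction.mem_stabilizer_iff]
    apply SetLike.ext
    intro x
    rw [ValuationSubring.mem_pointwise_smul_iff_inv_smul_mem, AlgEquiv.smul_def]
    constructor
    · intro hx
      have := hσmem _ hx
      rwa [← AlgEquiv.mul_apply, mul_inv_cancel, AlgEquiv.one_apply] at this
    · exact hσinvmem x
  refine ⟨σ'.1, hdec, ?_⟩
  intro y
  obtain ⟨a, rfl⟩ := IsLocalRing.residue_surjective y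
  rw [← IsLocalRing.ResidueField.residue_smul, ← map_pow, ← sub_eq_zero, ← map_sub,
    IsLocalRing.residue_eq_zero_iff, ← A.coe_mem_nonunits_iff]
  show σ'.1 (a : Qb) - (a : Qb) ^ ℓ ∈ A.nonunits
  -- write `a = b / s`
  obtain ⟨s, hs, hsA, hsx⟩ := exists_unit_integral_mul A hℓ hA' a.2 (isAlgebraic_int_Qb a)
  have hs0 : s ≠ 0 := fun h => hsA (h ▸ A.nonunits.zero_mem)
  have hσs0 : σ'.1 s ≠ 0 := (_root_.map_ne_zero _).mpr hs0
  have hσsA : σ'.1 s ∉ A.nonunits := hstab σ'.1 σ'.2 s hs hsA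
  have e1 := hcong ⟨s, hs⟩
  have e2 := hcong ⟨s * a, hsx⟩
  simp only [map_mul] at e2
  -- (σ s) * s^ℓ * (σ a - a^ℓ) = s^ℓ (σ(s a) - (s a)^ℓ) - (s a)^ℓ ... 
  have key : σ'.1 (a : Qb) - (a : Qb) ^ ℓ =
      ((σ'.1 s * σ'.1 (a : Qb) - (s * (a : Qb)) ^ ℓ) - (σ'.1 s - s ^ ℓ) * (a : Qb) ^ ℓ) *
        (σ'.1 s)⁻¹ := by
    field_simp
    ring
  rw [key, mul_comm]
  refine mul_mem_nonunits_of_mem A (inv_mem_of_not_mem_nonunits A hσsA) ?_
  refine A.nonunits.sub_mem e2 ?_
  rw [mul_comm]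
  exact mul_mem_nonunits_of_mem A (pow_mem a.2 ℓ) e1

/-- Every prime has a valuation subring of `ℚ̄` lying over it. -/
theorem exists_liesOverPrime {ℓ : ℕ} (hℓ : ℓ.Prime) :
    ∃ A : ValuationSubring (AlgebraicClosure ℚ), A.LiesOverPrime ℓ := by
  let R : Subring Qb := ⊥
  let I : Ideal R := Ideal.span {(ℓ : R)}
  have hI : I ≠ ⊤ := by
    intro h
    rw [Ideal.span_singleton_eq_top] at h
    obtain ⟨⟨u, hu⟩, hu'⟩ := h.exists_left_inv
    obtain ⟨n, rfl⟩ := Subring.mem_bot.mp hu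
    have h1 : ((n : ℤ) : Qb) * (ℓ : Qb) = 1 := congrArg Subtype.val hu'
    have h2 : (n * (ℓ : ℤ) : ℤ) = 1 := by exact_mod_cast h1
    exact (Nat.prime_iff_prime_int.mp hℓ).not_isUnit (IsUnit.of_mul_eq_one _ (by rw [mul_comm]; exact h2))
  obtain ⟨A, -, hA⟩ := Ideal.image_subset_nonunits_valuationSubring I hI
  refine ⟨A, hA ⟨(ℓ : R), Ideal.subset_span rfl, ?_⟩⟩
  simp

/-- **Existence of Frobenius pairs** in the form used by the frozen statements. -/
theorem exists_frobenius {ℓ : ℕ} (hℓ : ℓ.Prime) :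
    ∃ (A : ValuationSubring (AlgebraicClosure ℚ))
      (σ : AlgebraicClosure ℚ ≃ₐ[ℚ] AlgebraicClosure ℚ),
      A.LiesOverPrime ℓ ∧ A.IsFrobeniusAt σ ℓ := by
  obtain ⟨A, hA⟩ := exists_liesOverPrime hℓ
  obtain ⟨σ, hσ⟩ := exists_isFrobeniusAt A hℓ hA
  exact ⟨A, σ, hA, hσ⟩

end Galois

end Fermat.Agent.Lib.FrobeniusExists
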