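/-
Galois descent for `Aut(ℂ)` (pure algebra, no modular forms):

* `exists_ringEquiv_extending` : a ring automorphism of the polynomial ring on a transcendence
  basis extends to the algebraically closed field;
* `exists_ringEquiv_ne` : over a characteristic zero field `F`, every element of an algebraically
  closed extension `K` outside `F` is moved by some ring automorphism of `K`;
* `forall_ringEquiv_complex_fixed_iff` : the fixed field of the ring automorphisms of `ℂ` is `ℚ`;
* `exists_echelon_basis`, `span_fixed_eq` : a finite dimensional subspace of `ι → K` stable under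
  all coordinatewise automorphisms has an echelon basis with coordinates in the fixed field,
  hence is spanned by such vectors;
* `exists_echelon_basis_complex`, `span_rational_eq_complex`,
  `powerSeries_span_rational_eq_complex` : the versions for `ℂ`/`ℚ`.
-/
import Mathlib

set_option autoImplicit false

namespace Fermat.Agent.Lib.AutComplexDescent

open MvPolynomial

section Extend

variable {R K ι : Type*} [Field R] [Field K] [Algebra R K] [IsAlgClosed K] {v : ι → K}

/-- Any ring automorphism of the polynomial ring on a transcendence basis extends to an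
automorphism of the algebraically closed field. -/
theorem exists_ringEquiv_extending (hv : IsTranscendenceBasis R v)
    (φ : MvPolynomial ι R ≃+* MvPolynomial ι R) :
    ∃ σ : K ≃+* K, ∀ p : MvPolynomial ι R, σ (aeval v p) = aeval v (φ p) := by
  let _ := IsAlgClosed.isAlgClosure_of_transcendence_basis v hv
  let e : Algebra.adjoin R (Set.range v) ≃+* Algebra.adjoin R (Set.range v) :=
    hv.1.aevalEquiv.symm.toRingEquiv.trans (φ.trans hv.1.aevalEquiv.toRingEquiv)
  refine ⟨IsAlgClosure.equivOfEquiv K K e, fun p => ?_⟩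
  rw [← hv.1.algebraMap_aevalEquiv p, IsAlgClosure.equivOfEquiv_algebraMap,
    ← hv.1.algebraMap_aevalEquiv (φ p)]
  congr 1
  simp [e]

end Extend

section Moved

/-- A transcendental element of an algebraically closed field is moved by some automorphism. -/
theorem exists_ringEquiv_ne_of_transcendental {R K : Type*} [Field R] [Field K] [Algebra R K]
    [IsAlgClosed K] (z : K) (hz : Transcendental R z) : ∃ σ : K ≃+* K, σ z ≠ z := by
  classical
  have hind : AlgebraicIndepOn R id ({z} : Set K) := by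
    have : AlgebraicIndependent R (fun x : ({z} : Set K) => (x : K)) := by
      rw [algebraicIndependent_unique_type_iff]
      exact hz
    exact this
  obtain ⟨t, hzt, ht⟩ := exists_isTranscendenceBasis_superset hind
  have hzmem : z ∈ t := hzt rfl
  let i0 : t := ⟨z, hzmem⟩
  let f : MvPolynomial t R →ₐ[R] MvPolynomial t R :=
    aeval (fun i => if i = i0 then X i + 1 else X i)
  let g : MvPolynomial t R →ₐ[R] MvPolynomial t R :=
    aeval (fun i => if i = i0 then X i - 1 else X i)
  have hfg : f.comp g = AlgHom.id _ _ := by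
    ext i; by_cases h : i = i0 <;> simp [f, g, h]
  have hgf : g.comp f = AlgHom.id _ _ := by
    ext i; by_cases h : i = i0 <;> simp [f, g, h]
  let φ : MvPolynomial t R ≃ₐ[R] MvPolynomial t R := AlgEquiv.ofAlgHom f g hfg hgf
  obtain ⟨σ, hσ⟩ := exists_ringEquiv_extending ht φ.toRingEquiv
  refine ⟨σ, ?_⟩
  have h1 := hσ (X i0)
  have h2 : φ.toRingEquiv (X i0) = X i0 + 1 := by simp [φ, f]
  rw [h2] at h1
  simp only [aeval_X, map_add, map_one] at h1
  change σ z = z + 1 at h1
  rw [h1]
  simp

/-- An algebraic element outside the (characteristic zero) base field is moved by some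
automorphism of the algebraically closed field. -/
theorem exists_ringEquiv_ne_of_isAlgebraic {F K : Type*} [Field F] [Field K] [Algebra F K]
    [CharZero F] [IsAlgClosed K] (z : K) (hz : IsAlgebraic F z)
    (hzF : z ∉ Set.range (algebraMap F K)) : ∃ σ : K ≃+* K, σ z ≠ z := by
  have hzmem : z ∈ algebraicClosure F K := mem_algebraicClosure_iff.2 hz
  have hnot : ¬ ∀ f : (algebraicClosure F K) ≃ₐ[F] (algebraicClosure F K),
      f ⟨z, hzmem⟩ = ⟨z, hzmem⟩ := by
    rw [← InfiniteGalois.mem_range_algebraMap_iff_fixed]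
    rintro ⟨q, hq⟩
    exact hzF ⟨q, by simpa using congrArg Subtype.val hq⟩
  push Not at hnot
  obtain ⟨τ, hτ⟩ := hnot
  obtain ⟨ι, v, hv⟩ := exists_isTranscendenceBasis' (algebraicClosure F K) K
  obtain ⟨σ, hσ⟩ := exists_ringEquiv_extending hv (MvPolynomial.mapEquiv ι τ.toRingEquiv)
  refine ⟨σ, ?_⟩
  have h1 := hσ (C ⟨z, hzmem⟩)
  simp only [aeval_C, mapEquiv_apply, map_C] at h1
  change σ z = ((τ ⟨z, hzmem⟩ : algebraicClosure F K) : K) at h1
  rw [h1]
  intro h
  exact hτ (Subtype.ext h)

/-- Every element of an algebraically closed field `K` outside a characteristic zero subfield `F`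
is moved by some ring automorphism of `K`. -/
theorem exists_ringEquiv_ne {F K : Type*} [Field F] [Field K] [Algebra F K]
    [CharZero F] [IsAlgClosed K] (z : K) (hzF : z ∉ Set.range (algebraMap F K)) :
    ∃ σ : K ≃+* K, σ z ≠ z := by
  by_cases hz : IsAlgebraic F z
  · exact exists_ringEquiv_ne_of_isAlgebraic z hz hzF
  · exact exists_ringEquiv_ne_of_transcendental (R := F) z hz

/-- The fixed field of `Aut(ℂ)` is `ℚ`. -/
theorem forall_ringEquiv_complex_fixed_iff (z : ℂ) :
    (∀ σ : ℂ ≃+* ℂ, σ z = z) ↔ ∃ q : ℚ, (q : ℂ) = z := by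
  constructor
  · intro h
    by_contra hq
    have hz : z ∉ Set.range (algebraMap ℚ ℂ) := by
      rintro ⟨q, rfl⟩
      exact hq ⟨q, rfl⟩
    obtain ⟨σ, hσ⟩ := exists_ringEquiv_ne (F := ℚ) z hz
    exact hσ (h σ)
  · rintro ⟨q, rfl⟩ σ
    exact map_ratCast σ q

end Moved

section Descent

variable {K : Type*} [Field K] {ι : Type*}

/-- vectors of `V` vanishing on the finite set `s` of coordinates. -/
def vanishingOn (V : Submodule K (ι → K)) (s : Finset ι) : Submodule K (ι → K) where
  carrier := {v | v ∈ V ∧ ∀ i ∈ s, v i = 0}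
  add_mem' := by
    rintro a b ⟨ha, ha'⟩ ⟨hb, hb'⟩
    exact ⟨V.add_mem ha hb, fun i hi => by simp [ha' i hi, hb' i hi]⟩
  zero_mem' := ⟨V.zero_mem, fun _ _ => rfl⟩
  smul_mem' := by
    rintro c a ⟨ha, ha'⟩
    exact ⟨V.smul_mem c ha, fun i hi => by simp [ha' i hi]⟩

theorem vanishingOn_le (V : Submodule K (ι → K)) (s : Finset ι) : vanishingOn V s ≤ V :=
  fun _ hv => hv.1

theorem vanishingOn_mono (V : Submodule K (ι → K)) {s t : Finset ι} (h : s ⊆ t) :
    vanishingOn V t ≤ vanishingOn V s :=
  fun _ hv => ⟨hv.1, fun i hi => hv.2 i (h hi)⟩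

/-- `s` separates the points of `V`. -/
def Separates (V : Submodule K (ι → K)) (s : Finset ι) : Prop :=
  ∀ v ∈ V, (∀ i ∈ s, v i = 0) → v = 0

/-- restriction of coordinates to `s`. -/
def restrictTo (V : Submodule K (ι → K)) (s : Finset ι) : V →ₗ[K] (s → K) where
  toFun v := fun i => (v : ι → K) i
  map_add' _ _ := rfl
  map_smul' _ _ := rfl

/-- A finite set of coordinates separates the points of a finite dimensional subspace. -/
theorem exists_finset_separating (V : Submodule K (ι → K)) [FiniteDimensional K V] :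
    ∃ s : Finset ι, Separates V s := by
  classical
  have hne : ∃ n, ∃ s : Finset ι, Module.finrank K (vanishingOn V s) = n := ⟨_, ∅, rfl⟩
  obtain ⟨s, hs⟩ := Nat.find_spec hne
  have hmin : ∀ t : Finset ι, Module.finrank K (vanishingOn V s) ≤
      Module.finrank K (vanishingOn V t) := by
    intro t
    rw [hs]
    exact Nat.find_min' hne ⟨t, rfl⟩
  refine ⟨s, fun v hv hvs => ?_⟩
  funext i
  have : FiniteDimensional K (vanishingOn V s) :=
    Submodule.finiteDimensional_of_le (vanishingOn_le V s)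
  have heq : vanishingOn V (insert i s) = vanishingOn V s :=
    Submodule.eq_of_le_of_finrank_le (vanishingOn_mono V (Finset.subset_insert i s)) (hmin _)
  have hmem : v ∈ vanishingOn V (insert i s) := by
    rw [heq]; exact ⟨hv, hvs⟩
  exact hmem.2 i (Finset.mem_insert_self i s)

/-- A separating set of coordinates of minimal cardinality gives a bijection. -/
theorem exists_finset_bijective (V : Submodule K (ι → K))
    (hsep : ∃ s : Finset ι, Separates V s) :
    ∃ s : Finset ι, Separates V s ∧ Function.Surjective (restrictTo V s) := by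
  classical
  have hne : ∃ n, ∃ s : Finset ι, s.card = n ∧ Separates V s := by
    obtain ⟨s, hs⟩ := hsep
    exact ⟨_, s, rfl, hs⟩
  obtain ⟨s, hcard, hs⟩ := Nat.find_spec hne
  have hmin : ∀ t : Finset ι, Separates V t → s.card ≤ t.card := by
    intro t ht
    rw [hcard]
    exact Nat.find_min' hne ⟨t, rfl, ht⟩
  refine ⟨s, hs, ?_⟩
  by_contra hsurj
  have hlt : LinearMap.range (restrictTo V s) < ⊤ := by
    rw [lt_top_iff_ne_top, Ne, LinearMap.range_eq_top]
    exact hsurj
  obtain ⟨f, hf0, hf⟩ := Submodule.exists_le_ker_of_lt_top _ hlt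
  have hex : ∃ i0 : s, f (fun j => if i0 = j then 1 else 0) ≠ 0 := by
    by_contra hall
    push Not at hall
    apply hf0
    refine LinearMap.ext fun x => ?_
    rw [LinearMap.pi_apply_eq_sum_univ f x]
    simp [hall]
  obtain ⟨i0, hi0⟩ := hex
  have hsep' : Separates V (s.erase i0) := by
    intro v hv hvs
    apply hs v hv
    have hker : f (restrictTo V s ⟨v, hv⟩) = 0 := hf ⟨⟨v, hv⟩, rfl⟩
    rw [LinearMap.pi_apply_eq_sum_univ f] at hker
    have hzero : ∀ i : s, i ≠ i0 → (restrictTo V s ⟨v, hv⟩) i = 0 := by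
      intro i hi
      apply hvs
      rw [Finset.mem_erase]
      exact ⟨fun h => hi (Subtype.ext h), i.2⟩
    rw [Finset.sum_eq_single i0] at hker
    · have hv0 : v i0 = 0 := by
        rcases smul_eq_zero.mp hker with h | h
        · exact h
        · exact absurd h hi0
      intro i hi
      by_cases hii : i = i0
      · rw [hii]; exact hv0
      · exact hvs i (Finset.mem_erase.mpr ⟨hii, hi⟩)
    · intro i _ hi
      rw [hzero i hi, zero_smul]
    · intro h; exact absurd (Finset.mem_univ _) h
  have := hmin _ hsep'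
  rw [Finset.card_erase_of_mem i0.2] at this
  have hpos : 0 < s.card := Finset.card_pos.mpr ⟨i0, i0.2⟩
  omega

/-- **Echelon basis.** A finite dimensional subspace `V` of `ι → K` stable under all
coordinatewise automorphisms has a basis `e j` (`j` in a finite set `s` of coordinates), dual to
the coordinates in `s`, all of whose coordinates lie in (any set `F` containing) the fixed field
of `Aut K`. -/
theorem exists_echelon_basis (F : Set K)
    (hF : ∀ z : K, (∀ σ : K ≃+* K, σ z = z) → z ∈ F)
    (V : Submodule K (ι → K)) [FiniteDimensional K V]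
    (hV : ∀ σ : K ≃+* K, ∀ v ∈ V, (fun i => σ (v i)) ∈ V) :
    ∃ (s : Finset ι) (e : s → (ι → K)), (∀ j, e j ∈ V) ∧ (∀ j i, e j i ∈ F) ∧
      (∀ j : s, e j j = 1) ∧ (∀ j i : s, i ≠ j → e j i = 0) ∧
      (∀ v ∈ V, (∀ i ∈ s, v i = 0) → v = 0) ∧
      ∀ v ∈ V, v = ∑ j : s, v j • e j := by
  classical
  obtain ⟨s, hs, hsurj⟩ := exists_finset_bijective V (exists_finset_separating V)
  choose e he using fun j : s => hsurj (Pi.single j 1)
  have he' : ∀ (j : s) (i : ι) (hi : i ∈ s),
      (e j : ι → K) i = if (⟨i, hi⟩ : s) = j then 1 else 0 := by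
    intro j i hi
    have h1 := congrFun (he j) ⟨i, hi⟩
    change (e j : ι → K) i = _ at h1
    rw [h1, Pi.single_apply]
  have hfix : ∀ (j : s) (σ : K ≃+* K) (i : ι), σ ((e j : ι → K) i) = (e j : ι → K) i := by
    intro j σ i
    have hmem := hV σ (e j) (e j).2
    have h0 : (fun i => σ ((e j : ι → K) i)) - (e j : ι → K) = 0 := by
      apply hs _ (V.sub_mem hmem (e j).2)
      intro i hi
      simp only [Pi.sub_apply]
      rw [he' j i hi]
      split_ifs <;> simp
    have := congrFun h0 i
    simpa [sub_eq_zero] using this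
  refine ⟨s, fun j => (e j : ι → K), fun j => (e j).2, fun j i => hF _ fun σ => hfix j σ i,
    fun j => by show (e j : ι → K) j = 1; rw [he' j j j.2]; simp,
    fun j i hij => by show (e j : ι → K) i = 0; rw [he' j i i.2]; simp [hij],
    hs, fun v hv => ?_⟩
  have h0 : v - ∑ j : s, v j • (e j : ι → K) = 0 := by
    apply hs _ (V.sub_mem hv (V.sum_mem fun j _ => V.smul_mem _ (e j).2))
    intro i hi
    simp only [Pi.sub_apply, Finset.sum_apply, Pi.smul_apply, smul_eq_mul]
    simp only [he' _ i hi]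
    simp
  exact sub_eq_zero.mp h0

/-- A finite dimensional subspace of `ι → K` stable under all coordinatewise automorphisms is
spanned by its vectors with coordinates in the fixed field. -/
theorem span_fixed_eq (F : Set K)
    (hF : ∀ z : K, (∀ σ : K ≃+* K, σ z = z) → z ∈ F)
    (V : Submodule K (ι → K)) [FiniteDimensional K V]
    (hV : ∀ σ : K ≃+* K, ∀ v ∈ V, (fun i => σ (v i)) ∈ V) :
    Submodule.span K {v | v ∈ V ∧ ∀ i, v i ∈ F} = V := by
  apply le_antisymm
  · exact Submodule.span_le.mpr fun v hv => hv.1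
  · obtain ⟨s, e, heV, heF, -, -, -, hsum⟩ := exists_echelon_basis F hF V hV
    intro v hv
    rw [hsum v hv]
    exact Submodule.sum_mem _ fun j _ => Submodule.smul_mem _ _
      (Submodule.subset_span ⟨heV j, heF j⟩)

end Descent

section ComplexCase

variable {ι : Type*}

/-- Echelon basis with rational coordinates for an `Aut(ℂ)`-stable finite dimensional subspace
of `ι → ℂ`. -/
theorem exists_echelon_basis_complex
    (V : Submodule ℂ (ι → ℂ)) [FiniteDimensional ℂ V]
    (hV : ∀ σ : ℂ ≃+* ℂ, ∀ v ∈ V, (fun i => σ (v i)) ∈ V) :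
    ∃ (s : Finset ι) (e : s → (ι → ℂ)), (∀ j, e j ∈ V) ∧ (∀ j i, ∃ q : ℚ, (q : ℂ) = e j i) ∧
      (∀ j : s, e j j = 1) ∧ (∀ j i : s, i ≠ j → e j i = 0) ∧
      (∀ v ∈ V, (∀ i ∈ s, v i = 0) → v = 0) ∧
      ∀ v ∈ V, v = ∑ j : s, v j • e j :=
  exists_echelon_basis {z : ℂ | ∃ q : ℚ, (q : ℂ) = z}
    (fun z hz => (forall_ringEquiv_complex_fixed_iff z).1 hz) V hV

/-- An `Aut(ℂ)`-stable finite dimensional subspace of `ι → ℂ` is spanned by its vectors with
rational coordinates. -/
theorem span_rational_eq_complex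
    (V : Submodule ℂ (ι → ℂ)) [FiniteDimensional ℂ V]
    (hV : ∀ σ : ℂ ≃+* ℂ, ∀ v ∈ V, (fun i => σ (v i)) ∈ V) :
    Submodule.span ℂ {v | v ∈ V ∧ ∀ i, ∃ q : ℚ, (q : ℂ) = v i} = V :=
  span_fixed_eq {z : ℂ | ∃ q : ℚ, (q : ℂ) = z}
    (fun z hz => (forall_ringEquiv_complex_fixed_iff z).1 hz) V hV

/-- coefficients of a power series, as a linear equivalence. -/
noncomputable def coeffEquiv : PowerSeries ℂ ≃ₗ[ℂ] (ℕ → ℂ) where
  toFun f := fun n => PowerSeries.coeff n f
  invFun a := PowerSeries.mk a
  map_add' _ _ := by ext n; simp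
  map_smul' _ _ := by ext n; simp
  left_inv f := by ext n; simp
  right_inv a := by ext n; simp

/-- An `Aut(ℂ)`-stable finite dimensional subspace of `ℂ⟦X⟧` is spanned by its power series with
rational coefficients. -/
theorem powerSeries_span_rational_eq_complex
    (V : Submodule ℂ (PowerSeries ℂ)) [FiniteDimensional ℂ V]
    (hV : ∀ σ : ℂ ≃+* ℂ, ∀ f ∈ V, PowerSeries.map (σ : ℂ →+* ℂ) f ∈ V) :
    Submodule.span ℂ {f | f ∈ V ∧ ∀ n, ∃ q : ℚ, (q : ℂ) = PowerSeries.coeff n f} = V := by
  apply le_antisymm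
  · exact Submodule.span_le.mpr fun f hf => hf.1
  · have hfd : FiniteDimensional ℂ (V.map (coeffEquiv : PowerSeries ℂ →ₗ[ℂ] (ℕ → ℂ))) :=
      LinearEquiv.finiteDimensional (coeffEquiv.submoduleMap V)
    have hV' : ∀ σ : ℂ ≃+* ℂ, ∀ v ∈ V.map (coeffEquiv : PowerSeries ℂ →ₗ[ℂ] (ℕ → ℂ)),
        (fun i => σ (v i)) ∈ V.map (coeffEquiv : PowerSeries ℂ →ₗ[ℂ] (ℕ → ℂ)) := by
      rintro σ v ⟨f, hf, rfl⟩
      refine ⟨PowerSeries.map (σ : ℂ →+* ℂ) f, hV σ f hf, ?_⟩
      ext n
      simp [coeffEquiv]
    have hspan := span_rational_eq_complex _ hV'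
    intro f hf
    have hmem : coeffEquiv f ∈ V.map (coeffEquiv : PowerSeries ℂ →ₗ[ℂ] (ℕ → ℂ)) :=
      ⟨f, hf, rfl⟩
    rw [← hspan] at hmem
    have hle : Submodule.span ℂ {v | v ∈ V.map (coeffEquiv : PowerSeries ℂ →ₗ[ℂ] (ℕ → ℂ)) ∧
        ∀ i, ∃ q : ℚ, (q : ℂ) = v i} ≤
        (Submodule.span ℂ {f | f ∈ V ∧ ∀ n, ∃ q : ℚ, (q : ℂ) = PowerSeries.coeff n f}).map
          (coeffEquiv : PowerSeries ℂ →ₗ[ℂ] (ℕ → ℂ)) := by
      rw [Submodule.span_le]
      rintro v ⟨⟨g, hg, rfl⟩, hq⟩
      exact ⟨g, Submodule.subset_span ⟨hg, hq⟩, rfl⟩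
    obtain ⟨g, hg, hgf⟩ := hle hmem
    have : g = f := coeffEquiv.injective hgf
    rw [← this]
    exact hg

end ComplexCase

end Fermat.Agent.Lib.AutComplexDescent
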