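/-
Pure sequence lemmas: a formal Hecke eigensystem (in the sense of
`FormalHecke.IsEigensystem`) is multiplicative and satisfies the prime power recursion
(`FormalHecke.IsRecursive`).  No modular forms inside.
-/
import Mathlib
import Fermat.Prelude.Def_FormalHecke_Eigensystem

set_option autoImplicit false

namespace Fermat.Agent.Lib.EigenSeq

variable {R : Type*} [CommRing R]

/-- The Hecke relations with separate eigenvalues `lam`. -/
def Rel (e lam a : ℕ → R) : Prop :=
  ∀ ℓ : ℕ, ℓ.Prime → ∀ n : ℕ,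
    a (ℓ * n) + e ℓ * (if ℓ ∣ n then a (n / ℓ) else 0) = lam ℓ * a n

theorem rel_of_isEigensystem {e a : ℕ → R} (h : FormalHecke.IsEigensystem e a) :
    Rel e a a := h.2

/-- With `a 1 = 1`, the eigenvalue at `ℓ` is `a ℓ`. -/
theorem lam_eq {e lam a : ℕ → R} (h1 : a 1 = 1) (h : Rel e lam a) {ℓ : ℕ} (hℓ : ℓ.Prime) :
    lam ℓ = a ℓ := by
  have := h ℓ hℓ 1
  rw [if_neg (by simpa using hℓ.one_lt.ne'), mul_zero, add_zero, mul_one, h1, mul_one] at this
  exact this.symm

theorem rel_self {e lam a : ℕ → R} (h1 : a 1 = 1) (h : Rel e lam a) : Rel e a a := by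
  intro ℓ hℓ n
  rw [← lam_eq h1 h hℓ]
  exact h ℓ hℓ n

theorem isEigensystem_of_rel {e lam a : ℕ → R} (h1 : a 1 = 1) (h : Rel e lam a) :
    FormalHecke.IsEigensystem e a := ⟨h1, rel_self h1 h⟩

/-- prime power recursion -/
theorem prime_pow_rec {e a : ℕ → R} (h : Rel e a a) {ℓ : ℕ} (hℓ : ℓ.Prime) (r : ℕ) :
    a (ℓ ^ (r + 2)) = a ℓ * a (ℓ ^ (r + 1)) - e ℓ * a (ℓ ^ r) := by
  have := h ℓ hℓ (ℓ ^ (r + 1))
  rw [if_pos (dvd_pow_self ℓ (Nat.succ_ne_zero r)), ← pow_succ'] at this
  have e2 : ℓ ^ (r + 1) / ℓ = ℓ ^ r := by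
    rw [pow_succ, Nat.mul_div_cancel _ hℓ.pos]
  rw [e2] at this
  linear_combination this

/-- Claim A: `a (ℓ^s * t) = a (ℓ^s) * a t` for `ℓ ∤ t`. -/
theorem prime_pow_mul {e a : ℕ → R} (h1 : a 1 = 1) (h : Rel e a a) {ℓ : ℕ} (hℓ : ℓ.Prime)
    {t : ℕ} (ht : ¬ ℓ ∣ t) : ∀ s : ℕ, a (ℓ ^ s * t) = a (ℓ ^ s) * a t := by
  have key : ∀ s : ℕ, a (ℓ ^ s * t) = a (ℓ ^ s) * a t ∧
      a (ℓ ^ (s + 1) * t) = a (ℓ ^ (s + 1)) * a t := by
    intro s
    induction s with
    | zero =>
      refine ⟨by simp [h1], ?_⟩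
      have := h ℓ hℓ t
      rw [if_neg ht, mul_zero, add_zero] at this
      simpa using this
    | succ s ih =>
      refine ⟨ih.2, ?_⟩
      have hdvd : ℓ ∣ ℓ ^ (s + 1) * t := Dvd.dvd.mul_right (dvd_pow_self ℓ (Nat.succ_ne_zero s)) t
      have := h ℓ hℓ (ℓ ^ (s + 1) * t)
      rw [if_pos hdvd] at this
      have e1 : ℓ * (ℓ ^ (s + 1) * t) = ℓ ^ (s + 1 + 1) * t := by ring
      have e2 : ℓ ^ (s + 1) * t / ℓ = ℓ ^ s * t := by
        rw [pow_succ', mul_assoc, Nat.mul_div_cancel_left _ hℓ.pos]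
      rw [e1, e2, ih.1, ih.2] at this
      rw [prime_pow_rec h hℓ s]
      linear_combination this
  exact fun s => (key s).1

/-- multiplicativity -/
theorem mul_of_coprime {e a : ℕ → R} (h1 : a 1 = 1) (h : Rel e a a) :
    ∀ m n : ℕ, m.Coprime n → a (m * n) = a m * a n := by
  intro m
  induction m using Nat.recOnPrimeCoprime with
  | zero =>
    intro n hn
    rw [Nat.coprime_zero_left] at hn
    subst hn
    simp [h1]
  | prime_pow p s hp =>
    intro n hn
    rcases Nat.eq_zero_or_pos s with rfl | hs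
    · simp [h1]
    · have hpn : ¬ p ∣ n := by
        rw [← Nat.Prime.coprime_iff_not_dvd hp]
        exact (Nat.coprime_pow_left_iff hs p n).mp hn
      exact prime_pow_mul h1 h hp hpn s
  | coprime x y _ _ hxy hx hy =>
    intro n hn
    have hxn : x.Coprime n := Nat.Coprime.coprime_mul_right hn
    have hyn : y.Coprime n := Nat.Coprime.coprime_mul_left hn
    rw [mul_assoc, hx (y * n) (Nat.Coprime.mul_right hxy hxn), hy n hyn, hx y hxy]
    ring

theorem isRecursive_of_rel {e lam a : ℕ → R} (h1 : a 1 = 1) (h : Rel e lam a) :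
    FormalHecke.IsRecursive e a :=
  ⟨h1, mul_of_coprime h1 (rel_self h1 h), fun _ r hℓ => prime_pow_rec (rel_self h1 h) hℓ r⟩

/-- A formal eigensystem is recursive (multiplicative + prime power recursion). -/
theorem isRecursive_of_isEigensystem {e a : ℕ → R} (h : FormalHecke.IsEigensystem e a) :
    FormalHecke.IsRecursive e a :=
  isRecursive_of_rel h.1 h.2

/-- If the relations hold (with arbitrary eigenvalues) and `a 1 = 0`, then `a n = 0` for all
positive `n`. -/
theorem eq_zero_of_one_eq_zero {e lam a : ℕ → R} (h1 : a 1 = 0) (h : Rel e lam a) :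
    ∀ n : ℕ, 0 < n → a n = 0 := by
  intro n
  induction n using Nat.strong_induction_on with
  | _ n ih =>
    intro hn
    rcases Nat.lt_or_ge n 2 with h2 | h2
    · have : n = 1 := by omega
      rw [this, h1]
    · obtain ⟨ℓ, hℓ, hdvd⟩ := Nat.exists_prime_and_dvd (show n ≠ 1 by omega)
      obtain ⟨m, rfl⟩ := hdvd
      have hm : 0 < m := by
        rcases Nat.eq_zero_or_pos m with rfl | h
        · simp at hn
        · exact h
      have hmlt : m < ℓ * m := by
        have := hℓ.one_lt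
        nlinarith
      have hrel := h ℓ hℓ m
      have hm0 : a m = 0 := ih m hmlt hm
      rw [hm0, mul_zero] at hrel
      by_cases hd : ℓ ∣ m
      · rw [if_pos hd] at hrel
        have hlt : m / ℓ < ℓ * m := lt_of_le_of_lt (Nat.div_le_self m ℓ) hmlt
        have hpos : 0 < m / ℓ := Nat.div_pos (Nat.le_of_dvd hm hd) hℓ.pos
        rw [ih (m / ℓ) hlt hpos, mul_zero, add_zero] at hrel
        exact hrel
      · rw [if_neg hd, mul_zero, add_zero] at hrel
        exact hrel

end Fermat.Agent.Lib.EigenSeq
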