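/-
A nonzero simultaneous eigenvector of all `T_p` (`p ∤ N`) and `U_p` (`p ∣ N`) in
`S_k(Γ₀(N))` has `a₁ ≠ 0`; in weight 2 its normalisation is a `CuspForm.IsNormalizedEigenform`.
-/
import Mathlib
import Fermat.Prelude.Def_CuspForm_HeckeAlgebra
import Fermat.Prelude.Def_FLTPrelim_Modularity
import Fermat.Prelude.Thm_ModularFormClass_qCoeff_heckeT
import Fermat.Prelude.Thm_ModularFormClass_qCoeff_heckeU
import Fermat.Prelude.Thm_CongruenceSubgroup_one_mem_strictPeriods_Gamma0
import Fermat.Agent.Lib.EigenSeq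

set_option autoImplicit false

namespace Fermat.Agent.Lib.EigenformOfEigenvector

open CongruenceSubgroup ModularFormClass UpperHalfPlane

variable {N : ℕ} {k : ℤ}

theorem qCoeff_heckeTLin {p : ℕ} (hp : p.Prime) (hpN : ¬ p ∣ N)
    (f : CuspForm (Gamma0 N) k) (n : ℕ) :
    qCoeff (CuspForm.heckeTLin k hp hpN f) n =
      qCoeff f (n * p) + if p ∣ n then (p : ℂ) ^ (k - 1) * qCoeff f (n / p) else 0 := by
  rw [CuspForm.coe_heckeTLin_apply,
    ModularFormClass.qCoeff_heckeT f (one_mem_strictPeriods_Gamma0 N) hp.ne_zero n]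
  rfl

theorem qCoeff_heckeULin [NeZero N] {p : ℕ} (hp : p.Prime) (hpN : p ∣ N)
    (f : CuspForm (Gamma0 N) k) (n : ℕ) :
    qCoeff (CuspForm.heckeULin k hpN f) n = qCoeff f (n * p) := by
  rw [CuspForm.coe_heckeULin_apply,
    ModularFormClass.qCoeff_heckeU f (one_mem_strictPeriods_Gamma0 N) hp.ne_zero n]
  rfl

theorem qCoeff_smul (c : ℂ) (f : CuspForm (Gamma0 N) k) (n : ℕ) :
    qCoeff (c • f : CuspForm (Gamma0 N) k) n = c * qCoeff f n := by
  unfold qCoeff
  have : (⇑(c • f : CuspForm (Gamma0 N) k) : ℍ → ℂ) = c • (⇑f : ℍ → ℂ) := by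
    ext τ; simp
  rw [this, ModularForm.qExpansion_smul one_pos (one_mem_strictPeriods_Gamma0 N) c f]
  simp

theorem qCoeff_zero_eq_zero (f : CuspForm (Gamma0 N) k) : qCoeff f 0 = 0 := by
  unfold qCoeff
  exact CuspFormClass.qExpansion_coeff_zero f one_pos (one_mem_strictPeriods_Gamma0 N)

theorem eq_zero_of_forall_qCoeff_eq_zero (f : CuspForm (Gamma0 N) k)
    (h : ∀ n, qCoeff f n = 0) : f = 0 := by
  have hΓ := one_mem_strictPeriods_Gamma0 N
  have : Fact (IsCusp OnePoint.infty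
      (Subgroup.map (Matrix.SpecialLinearGroup.mapGL ℝ) (Gamma0 N))) :=
    ⟨Subgroup.isCusp_of_mem_strictPeriods one_pos hΓ⟩
  have hq : qExpansion 1 f = 0 := by
    ext n
    simpa [qCoeff] using h n
  have hfun : (⇑f : ℍ → ℂ) = 0 :=
    (UpperHalfPlane.qExpansion_eq_zero_iff one_pos
      (SlashInvariantFormClass.periodic_comp_ofComplex f hΓ)
      (ModularFormClass.holo f) (ModularFormClass.bdd_at_infty f)).mp hq
  exact DFunLike.coe_injective hfun

/-- The character of weight-2 level-`N` Hecke relations: `p` for `p ∤ N`, `0` for `p ∣ N`. -/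
noncomputable def levelChar (N : ℕ) (p : ℕ) : ℂ := if p ∣ N then 0 else (p : ℂ)

/-- The q-coefficients of a simultaneous eigenvector satisfy the formal Hecke relations. -/
theorem rel_of_eigenvector [NeZero N] (f : CuspForm (Gamma0 N) 2) (lam : ℕ → ℂ)
    (hT : ∀ (p : ℕ) (hp : p.Prime) (hpN : ¬ p ∣ N), CuspForm.heckeTLin 2 hp hpN f = lam p • f)
    (hU : ∀ (p : ℕ) (_ : p.Prime) (hpN : p ∣ N), CuspForm.heckeULin 2 hpN f = lam p • f) :
    EigenSeq.Rel (levelChar N) lam (fun n => qCoeff f n) := by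
  intro p hp n
  by_cases hpN : p ∣ N
  · have h := congrArg (fun g : CuspForm (Gamma0 N) 2 => qCoeff g n) (hU p hp hpN)
    simp only [qCoeff_heckeULin hp hpN, qCoeff_smul] at h
    simp only [levelChar, if_pos hpN, zero_mul, add_zero]
    rw [mul_comm p n]; exact h
  · have h := congrArg (fun g : CuspForm (Gamma0 N) 2 => qCoeff g n) (hT p hp hpN)
    simp only [qCoeff_heckeTLin hp hpN, qCoeff_smul] at h
    simp only [levelChar, if_neg hpN]
    rw [mul_comm p n, ← h]
    split_ifs <;> norm_num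

/-- A nonzero simultaneous eigenvector has nonvanishing first coefficient. -/
theorem qCoeff_one_ne_zero_of_eigenvector [NeZero N] (f : CuspForm (Gamma0 N) 2) (hf : f ≠ 0)
    (lam : ℕ → ℂ)
    (hT : ∀ (p : ℕ) (hp : p.Prime) (hpN : ¬ p ∣ N), CuspForm.heckeTLin 2 hp hpN f = lam p • f)
    (hU : ∀ (p : ℕ) (_ : p.Prime) (hpN : p ∣ N), CuspForm.heckeULin 2 hpN f = lam p • f) :
    qCoeff f 1 ≠ 0 := by
  intro h1
  apply hf
  apply eq_zero_of_forall_qCoeff_eq_zero
  intro n
  rcases Nat.eq_zero_or_pos n with rfl | hn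
  · exact qCoeff_zero_eq_zero f
  · exact EigenSeq.eq_zero_of_one_eq_zero (a := fun n => qCoeff f n) h1
      (rel_of_eigenvector f lam hT hU) n hn

/-- The normalisation of a nonzero simultaneous eigenvector is a normalised eigenform, with
`p`-th coefficient the eigenvalue. -/
theorem isNormalizedEigenform_of_eigenvector [NeZero N] (f : CuspForm (Gamma0 N) 2) (hf : f ≠ 0)
    (lam : ℕ → ℂ)
    (hT : ∀ (p : ℕ) (hp : p.Prime) (hpN : ¬ p ∣ N), CuspForm.heckeTLin 2 hp hpN f = lam p • f)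
    (hU : ∀ (p : ℕ) (_ : p.Prime) (hpN : p ∣ N), CuspForm.heckeULin 2 hpN f = lam p • f) :
    ((qCoeff f 1)⁻¹ • f).IsNormalizedEigenform ∧
      ∀ p : ℕ, p.Prime → qCoeff ((qCoeff f 1)⁻¹ • f : CuspForm (Gamma0 N) 2) p = lam p := by
  have h1 := qCoeff_one_ne_zero_of_eigenvector f hf lam hT hU
  set c : ℂ := (qCoeff f 1)⁻¹ with hc
  have hrel : EigenSeq.Rel (levelChar N) lam
      (fun n => qCoeff (c • f : CuspForm (Gamma0 N) 2) n) := by
    intro p hp n
    have := rel_of_eigenvector f lam hT hU p hp n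
    simp only [qCoeff_smul]
    simp only at this
    split_ifs at this ⊢ with hd
    · linear_combination c * this
    · linear_combination c * this
  have hone : qCoeff (c • f : CuspForm (Gamma0 N) 2) 1 = 1 := by
    rw [qCoeff_smul, hc, inv_mul_cancel₀ h1]
  have hrec := EigenSeq.isRecursive_of_rel (a := fun n => qCoeff (c • f : CuspForm (Gamma0 N) 2) n)
    hone hrel
  refine ⟨⟨hone, hrec.2.1, ?_, ?_⟩, fun p hp => (EigenSeq.lam_eq hone hrel hp).symm⟩
  · intro p r hp hpN
    have := hrec.2.2 p r hp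
    simp only [levelChar, if_neg hpN] at this
    exact this
  · intro p r hp hpN
    have := hrec.2.2 p r hp
    simp only [levelChar, if_pos hpN, zero_mul, sub_zero] at this
    exact this

end Fermat.Agent.Lib.EigenformOfEigenvector
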