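/-
Existence of Frobenius elements in `Gal(ℚ̄/ℚ)`: for every prime `ℓ` there is a valuation
subring `A` of `ℚ̄` lying over `ℓ` and `σ` in its decomposition group acting as `x ↦ x ^ ℓ`
on the residue field.  (helper71)
-/
import Mathlib
import Fermat.Prelude.Def_EllipticCurve_FrobeniusTrace

set_option autoImplicit false
set_option linter.style.haveILetI false

namespace Fermat.Agent.Lib.FrobeniusPair

open Polynomial
open scoped Pointwise

section Abstract

variable {K : Type*} [Field K]

/-- Kaplansky's `(u, u⁻¹)`-lemma for a local subring integrally closed in a field. -/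
theorem mem_or_inv_mem_of_isUnit_coeff (R : Subring K) [IsLocalRing R] [IsIntegrallyClosedIn R K]
    (u : K) : ∀ (n : ℕ) (p : Polynomial R), p.natDegree ≤ n → aeval u p = 0 →
      (∃ i, IsUnit (p.coeff i)) → u ∈ R ∨ u⁻¹ ∈ R := by
  intro n
  induction n with
  | zero =>
    intro p hdeg hp ⟨i, hi⟩
    exfalso
    rw [Nat.le_zero] at hdeg
    rw [Polynomial.eq_C_of_natDegree_eq_zero hdeg] at hp hi
    rw [aeval_C] at hp
    have h0 : p.coeff 0 = 0 := by
      have : ((p.coeff 0 : R) : K) = 0 := hp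
      exact_mod_cast this
    rw [h0] at hi
    simp at hi
  | succ n ih =>
    intro p hdeg hp hunit
    by_cases hlc : IsUnit p.leadingCoeff
    · -- `u` is integral over `R`
      left
      have hint : IsIntegral R u := by
        refine ⟨C (↑hlc.unit⁻¹ : R) * p, ?_, ?_⟩
        · rw [Monic, leadingCoeff_mul, leadingCoeff_C]
          exact hlc.val_inv_mul
        · rw [← aeval_def, map_mul, hp, mul_zero]
      obtain ⟨y, hy⟩ := IsIntegrallyClosedIn.algebraMap_eq_of_integral hint
      rw [← hy]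
      exact y.2
    · by_cases hdeg' : p.natDegree ≤ n
      · exact ih p hdeg' hp hunit
      · have hdegeq : p.natDegree = n + 1 := by omega
        have hbint : IsIntegral R (p.leadingCoeff • u) := isIntegral_leadingCoeff_smul p u hp
        obtain ⟨b, hb⟩ := IsIntegrallyClosedIn.algebraMap_eq_of_integral hbint
        have hb' : (b : K) = (p.leadingCoeff : K) * u := hb
        -- the new polynomial of smaller degree
        set p' : Polynomial R := p.eraseLead + C b * X ^ n with hp'def
        have hp'deg : p'.natDegree ≤ n := by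
          refine (natDegree_add_le _ _).trans (max_le ?_ (natDegree_C_mul_X_pow_le _ _))
          exact (eraseLead_natDegree_le p).trans (by omega)
        have hp'eval : aeval u p' = 0 := by
          have h1 : aeval u p = aeval u p.eraseLead + (p.leadingCoeff : K) * u ^ (n + 1) := by
            conv_lhs => rw [← eraseLead_add_C_mul_X_pow p, hdegeq]
            rw [map_add, map_mul, aeval_C, map_pow, aeval_X]
            rfl
          rw [hp'def, map_add, map_mul, aeval_C, map_pow, aeval_X]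
          have : (algebraMap R K) b = (b : K) := rfl
          rw [this, hb', ← hp, h1]
          ring
        by_cases hex : ∃ j, IsUnit (p'.coeff j)
        · exact ih p' hp'deg hp'eval hex
        · push Not at hex
          obtain ⟨i, hi⟩ := hunit
          have hi_ne : i ≠ n + 1 := by
            rintro rfl
            apply hlc
            rwa [leadingCoeff, hdegeq]
          have hcoeff : p'.coeff i = p.coeff i + if i = n then b else 0 := by
            rw [hp'def, coeff_add, coeff_C_mul_X_pow, eraseLead_coeff_of_ne _ (by rwa [hdegeq])]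
          by_cases hin : i = n
          · subst hin
            rw [if_pos rfl] at hcoeff
            -- `b` must be a unit
            have hbunit : IsUnit b := by
              by_contra hbn
              have h1 : p'.coeff i ∈ nonunits R := hex i
              have h2 : -b ∈ nonunits R := by
                rw [mem_nonunits_iff, IsUnit.neg_iff]; exact hbn
              have h3 := IsLocalRing.nonunits_add h1 h2
              rw [hcoeff, add_neg_cancel_right] at h3
              exact h3 hi
            right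
            obtain ⟨c, hc⟩ := hbunit.exists_right_inv
            have hc' : (b : K) * (c : K) = 1 := by exact_mod_cast congrArg (fun x : R => (x : K)) hc
            rw [hb'] at hc'
            have hu : u⁻¹ = (p.leadingCoeff : K) * (c : K) := by
              have h1 : ((p.leadingCoeff : K) * (c : K)) * u = 1 := by linear_combination hc'
              exact (eq_inv_of_mul_eq_one_left h1).symm
            rw [hu]
            exact R.mul_mem p.leadingCoeff.2 c.2
          · rw [if_neg hin, add_zero] at hcoeff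
            exact absurd (hcoeff ▸ hi) (hex i)

/-- membership in the localization of a subring at a prime, concretely. -/
theorem mem_ofPrime_iff (A : Subring K) (Q : Ideal A) [Q.IsPrime] (x : K) :
    x ∈ (LocalSubring.ofPrime A Q).toSubring ↔ ∃ s : A, s ∉ Q ∧ ∃ b : A, x * (s : K) = (b : K) := by
  constructor
  · intro hx
    obtain ⟨b, s, hbs⟩ := IsLocalization.exists_mk'_eq Q.primeCompl
      (⟨x, hx⟩ : (LocalSubring.ofPrime A Q).toSubring)
    refine ⟨s.1, s.2, b, ?_⟩
    have h := IsLocalization.mk'_spec (LocalSubring.ofPrime A Q).toSubring b s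
    rw [hbs] at h
    exact congrArg (fun y : (LocalSubring.ofPrime A Q).toSubring => (y : K)) h
  · rintro ⟨s, hs, b, hb⟩
    have hsu : IsUnit (algebraMap A (LocalSubring.ofPrime A Q).toSubring s) :=
      IsLocalization.map_units (LocalSubring.ofPrime A Q).toSubring (⟨s, hs⟩ : Q.primeCompl)
    obtain ⟨c, hc⟩ := hsu.exists_right_inv
    have hc' : (s : K) * (c : K) = 1 :=
      congrArg (fun y : (LocalSubring.ofPrime A Q).toSubring => (y : K)) hc
    have hx : x = (b : K) * (c : K) := by
      calc x = x * ((s : K) * (c : K)) := by rw [hc', mul_one]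
        _ = (b : K) * (c : K) := by rw [← mul_assoc, hb]
    rw [hx]
    exact Subring.mul_mem _ (LocalSubring.le_ofPrime A Q b.2) c.2

theorem isIntegrallyClosedIn_ofPrime (A : Subring K) [IsIntegrallyClosedIn A K] (Q : Ideal A)
    [Q.IsPrime] : IsIntegrallyClosedIn (LocalSubring.ofPrime A Q).toSubring K := by
  rw [Subring.isIntegrallyClosedIn_iff]
  intro x hx
  obtain ⟨⟨m, hm⟩, hmx⟩ :=
    IsIntegral.exists_multiple_integral_of_isLocalization Q.primeCompl x hx
  obtain ⟨y, hy⟩ := IsIntegrallyClosedIn.algebraMap_eq_of_integral hmx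
  rw [mem_ofPrime_iff]
  refine ⟨m, hm, y, ?_⟩
  have : (y : K) = (m : K) * x := hy
  rw [this, mul_comm]

/-- The localization at a prime as a valuation subring, provided every element of the field is
annihilated by a polynomial having a coefficient outside the prime. -/
noncomputable def valuationSubringOfPrime (A : Subring K) [IsIntegrallyClosedIn A K] (Q : Ideal A)
    [Q.IsPrime] (h : ∀ x : K, ∃ p : Polynomial A, aeval x p = 0 ∧ ∃ i, p.coeff i ∉ Q) :
    ValuationSubring K :=
  { (LocalSubring.ofPrime A Q).toSubring with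
    mem_or_inv_mem' := fun x => by
      obtain ⟨p, hp, i, hi⟩ := h x
      haveI := isIntegrallyClosedIn_ofPrime A Q
      refine mem_or_inv_mem_of_isUnit_coeff (LocalSubring.ofPrime A Q).toSubring x _
        (p.map (algebraMap A (LocalSubring.ofPrime A Q).toSubring)) le_rfl ?_ ⟨i, ?_⟩
      · rw [aeval_map_algebraMap]; exact hp
      · rw [coeff_map]
        exact IsLocalization.map_units (LocalSubring.ofPrime A Q).toSubring
          (⟨p.coeff i, hi⟩ : Q.primeCompl) }

theorem mem_valuationSubringOfPrime_iff (A : Subring K) [IsIntegrallyClosedIn A K] (Q : Ideal A)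
    [Q.IsPrime] (h : ∀ x : K, ∃ p : Polynomial A, aeval x p = 0 ∧ ∃ i, p.coeff i ∉ Q) (x : K) :
    x ∈ valuationSubringOfPrime A Q h ↔ ∃ s : A, s ∉ Q ∧ ∃ b : A, x * (s : K) = (b : K) :=
  mem_ofPrime_iff A Q x

end Abstract

section Concrete

/-- `ℚ̄`. -/
noncomputable abbrev Qb : Type := AlgebraicClosure ℚ
/-- `Gal(ℚ̄/ℚ)`. -/
noncomputable abbrev Gq : Type := AlgebraicClosure ℚ ≃ₐ[ℚ] AlgebraicClosure ℚ
/-- algebraic integers, as a subring of `ℚ̄`. -/
noncomputable abbrev Zs : Subring (AlgebraicClosure ℚ) :=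
  (integralClosure ℤ (AlgebraicClosure ℚ)).toSubring

theorem isAlgebraic_Qb : Algebra.IsAlgebraic ℚ Qb := AlgebraicClosure.isAlgebraic ℚ
theorem isAlgClosure_Qb : IsAlgClosure ℚ Qb := AlgebraicClosure.instIsAlgClosure ℚ
attribute [local instance] isAlgebraic_Qb isAlgClosure_Qb

/-- the Galois action on the algebraic integers (kept local to this file) -/
@[reducible] noncomputable def instActionZs : MulSemiringAction Gq Zs :=
  inferInstanceAs (MulSemiringAction Gq (integralClosure ℤ Qb))

attribute [local instance] instActionZs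

theorem coe_smul_Zs (g : Gq) (x : Zs) : ((g • x : Zs) : Qb) = g (x : Qb) := rfl

theorem instIsIntegralZs : Algebra.IsIntegral ℤ Zs :=
  inferInstanceAs (Algebra.IsIntegral ℤ (integralClosure ℤ Qb))

attribute [local instance] instIsIntegralZs


theorem isInvariant_Zs : Algebra.IsInvariant ℤ Zs Gq := by
  refine ⟨fun b hb => ?_⟩
  have hfix : (b : Qb) ∈ Set.range (algebraMap ℚ Qb) := by
    rw [InfiniteGalois.mem_range_algebraMap_iff_fixed]
    intro g
    exact congrArg (fun y : Zs => (y : Qb)) (hb g)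
  obtain ⟨r, hr⟩ := hfix
  have hbint : IsIntegral ℤ (b : Qb) := b.2
  rw [← hr, isIntegral_algebraMap_iff (FaithfulSMul.algebraMap_injective ℚ Qb)] at hbint
  obtain ⟨a, ha⟩ := IsIntegrallyClosed.algebraMap_eq_of_integral hbint
  refine ⟨a, Subtype.ext ?_⟩
  rw [← hr, ← ha]
  simp

/-- the discrete topology on the algebraic integers (kept local to this file) -/
@[reducible] def instTopZs : TopologicalSpace Zs := ⊥

attribute [local instance] instTopZs

theorem instDiscZs : DiscreteTopology Zs := ⟨rfl⟩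

attribute [local instance] instDiscZs

theorem continuousSMul_Zs : ContinuousSMul Gq Zs := by
  rw [continuousSMul_iff_stabilizer_isOpen]
  intro x
  have : (MulAction.stabilizer Gq x : Set Gq) = (MulAction.stabilizer Gq (x : Qb) : Set Gq) := by
    ext g
    simp only [SetLike.mem_coe, MulAction.mem_stabilizer_iff]
    constructor
    · intro h; exact congrArg (fun y : Zs => (y : Qb)) h
    · intro h; exact Subtype.ext h
  rw [this]
  exact stabilizer_isOpen_of_isIntegral x.1

attribute [local instance] isInvariant_Zs continuousSMul_Zs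

theorem isMaximal_span_prime (ℓ : ℕ) (hℓ : ℓ.Prime) : (Ideal.span {(ℓ : ℤ)}).IsMaximal :=
  PrincipalIdealRing.isMaximal_of_irreducible (Nat.prime_iff_prime_int.mp hℓ).irreducible

/-- `ℓ`-th power map on the quotient is surjective -/
theorem pow_surjective_quot (ℓ : ℕ) (hℓ : ℓ.Prime) (Q : Ideal Zs) (x : Zs ⧸ Q) :
    ∃ y : Zs ⧸ Q, y ^ ℓ = x := by
  obtain ⟨b, rfl⟩ := Ideal.Quotient.mk_surjective x
  obtain ⟨c, hc⟩ := IsAlgClosed.exists_pow_nat_eq (b : Qb) hℓ.pos
  have hcint : IsIntegral ℤ c := by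
    have : IsIntegral ℤ (c ^ ℓ) := by rw [hc]; exact b.2
    exact IsIntegral.of_pow hℓ.pos this
  refine ⟨Ideal.Quotient.mk Q ⟨c, hcint⟩, ?_⟩
  rw [← map_pow]
  congr 1
  exact Subtype.ext hc

theorem exists_frob_stabilizer (ℓ : ℕ) (hℓ : ℓ.Prime) (Q : Ideal Zs) [hQ : Q.IsMaximal]
    [hQP : Q.LiesOver (Ideal.span {(ℓ : ℤ)})] :
    ∃ σ : Gq, σ • Q = Q ∧ ∀ b : Zs, σ • b - b ^ ℓ ∈ Q := by
  haveI : Fact ℓ.Prime := ⟨hℓ⟩
  -- the characteristic of the quotient
  have hℓQ : ((ℓ : ℤ) : Zs) ∈ Q := by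
    have : (ℓ : ℤ) ∈ Q.under ℤ := by
      rw [← hQP.over]; exact Ideal.subset_span rfl
    exact this
  have hcast : ((ℓ : ℕ) : Zs ⧸ Q) = 0 := by
    have : Ideal.Quotient.mk Q ((ℓ : ℤ) : Zs) = 0 := Ideal.Quotient.eq_zero_iff_mem.mpr hℓQ
    simpa using this
  letI : Field (Zs ⧸ Q) := Ideal.Quotient.field Q
  haveI : CharP (Zs ⧸ Q) ℓ := by
    have := CharP.ringChar_of_prime_eq_zero hℓ hcast
    exact ringChar.of_eq this
  -- Frobenius as an algebra automorphism
  have hbij : Function.Bijective (frobenius (Zs ⧸ Q) ℓ) :=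
    ⟨frobenius_inj (Zs ⧸ Q) ℓ, fun x => by
      obtain ⟨y, hy⟩ := pow_surjective_quot ℓ hℓ Q x
      exact ⟨y, by rw [frobenius_def, hy]⟩⟩
  let F : (Zs ⧸ Q) →ₐ[ℤ ⧸ Ideal.span {(ℓ : ℤ)}] (Zs ⧸ Q) :=
    { frobenius (Zs ⧸ Q) ℓ with
      commutes' := by
        intro r
        obtain ⟨n, rfl⟩ := Ideal.Quotient.mk_surjective r
        have : algebraMap (ℤ ⧸ Ideal.span {(ℓ : ℤ)}) (Zs ⧸ Q) (Ideal.Quotient.mk _ n)
            = ((n : ℤ) : Zs ⧸ Q) := by
          rw [← Ideal.Quotient.algebraMap_eq, ← IsScalarTower.algebraMap_apply]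
          simp
        simp only [RingHom.toMonoidHom_eq_coe, OneHom.toFun_eq_coe, MonoidHom.toOneHom_coe,
          MonoidHom.coe_coe, this]
        exact map_intCast (frobenius (Zs ⧸ Q) ℓ) n }
  let Fe : (Zs ⧸ Q) ≃ₐ[ℤ ⧸ Ideal.span {(ℓ : ℤ)}] (Zs ⧸ Q) := AlgEquiv.ofBijective F hbij
  obtain ⟨⟨σ, hσ⟩, hσF⟩ :=
    Ideal.Quotient.stabilizerHom_surjective_of_profinite (G := Gq)
      (Ideal.span {(ℓ : ℤ)}) Q Fe
  refine ⟨σ, hσ, fun b => ?_⟩
  have h1 := congrArg (fun e : (Zs ⧸ Q) ≃ₐ[ℤ ⧸ Ideal.span {(ℓ : ℤ)}] (Zs ⧸ Q) =>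
    e (Ideal.Quotient.mk Q b)) hσF
  simp only [Ideal.Quotient.stabilizerHom_apply] at h1
  have h2 : Fe (Ideal.Quotient.mk Q b) = (Ideal.Quotient.mk Q b) ^ ℓ := rfl
  rw [h2, ← map_pow] at h1
  rw [← Ideal.Quotient.eq]
  exact h1


/-- every algebraic number is annihilated by an integer polynomial having a coefficient
outside a given prime over `ℓ`. -/
theorem exists_poly_coeff_not_mem (ℓ : ℕ) (hℓ : ℓ.Prime) (Q : Ideal Zs) [Q.IsPrime]
    [hQP : Q.LiesOver (Ideal.span {(ℓ : ℤ)})] (x : Qb) :
    ∃ p : Polynomial Zs, aeval x p = 0 ∧ ∃ i, p.coeff i ∉ Q := by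
  have hx : IsAlgebraic ℤ x :=
    (IsFractionRing.isAlgebraic_iff ℤ ℚ Qb).mpr (Algebra.IsAlgebraic.isAlgebraic x)
  obtain ⟨p₀, hp₀, hp₀x⟩ := hx
  have hq : aeval x p₀.primPart = 0 := by
    have h1 : aeval x p₀ = aeval x (C p₀.content * p₀.primPart) := by
      rw [← p₀.eq_C_content_mul_primPart]
    rw [hp₀x, map_mul, aeval_C] at h1
    have hc : (algebraMap ℤ Qb) p₀.content ≠ 0 := by
      rw [Ne, map_eq_zero_iff _ (FaithfulSMul.algebraMap_injective ℤ Qb), content_eq_zero_iff]
      exact hp₀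
    exact (mul_eq_zero.mp h1.symm).resolve_left hc
  have hprim : p₀.primPart.IsPrimitive := p₀.isPrimitive_primPart
  have hex : ∃ i, ¬ (ℓ : ℤ) ∣ p₀.primPart.coeff i := by
    by_contra h
    push Not at h
    have h1 : C (ℓ : ℤ) ∣ p₀.primPart := (Polynomial.C_dvd_iff_dvd_coeff _ _).mpr h
    have h2 : IsUnit (ℓ : ℤ) := hprim _ h1
    exact (Nat.prime_iff_prime_int.mp hℓ).not_isUnit h2
  obtain ⟨i, hi⟩ := hex
  refine ⟨p₀.primPart.map (algebraMap ℤ Zs), ?_, i, ?_⟩
  · rw [aeval_map_algebraMap]; exact hq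
  · rw [coeff_map]
    intro hmem
    have h1 : p₀.primPart.coeff i ∈ Q.under ℤ := hmem
    rw [← hQP.over, Ideal.mem_span_singleton] at h1
    exact hi h1

/-- **Existence of Frobenius elements** in the absolute Galois group of `ℚ`. -/
theorem exists_frobenius_pair (ℓ : ℕ) (hℓ : ℓ.Prime) :
    ∃ (A : ValuationSubring (AlgebraicClosure ℚ))
      (σ : AlgebraicClosure ℚ ≃ₐ[ℚ] AlgebraicClosure ℚ),
      A.LiesOverPrime ℓ ∧ A.IsFrobeniusAt σ ℓ := by
  haveI := isMaximal_span_prime ℓ hℓ
  obtain ⟨Q, hQmax, hQP⟩ :=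
    Ideal.exists_maximal_ideal_liesOver_of_isIntegral (S := Zs) (Ideal.span {(ℓ : ℤ)})
  obtain ⟨σ, hσQ, hσ⟩ := exists_frob_stabilizer ℓ hℓ Q
  have hpoly := exists_poly_coeff_not_mem ℓ hℓ Q
  set A : ValuationSubring Qb := valuationSubringOfPrime Zs Q hpoly with hA
  have hmem : ∀ x : Qb, x ∈ A ↔ ∃ s : Zs, s ∉ Q ∧ ∃ b : Zs, x * (s : Qb) = (b : Qb) :=
    fun x => mem_valuationSubringOfPrime_iff Zs Q hpoly x
  have hone : (1 : Zs) ∉ Q := fun h => hQmax.ne_top ((Ideal.eq_top_iff_one Q).mpr h)
  have hZA : ∀ b : Zs, (b : Qb) ∈ A := fun b => (hmem _).mpr ⟨1, hone, b, by simp⟩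
  have hQnon : ∀ q : Zs, q ∈ Q → (q : Qb) ∈ A.nonunits := by
    intro q hq
    rw [ValuationSubring.mem_nonunits_iff_or]
    by_cases h0 : (q : Qb) = 0
    · exact Or.inl h0
    · right
      intro hinv
      obtain ⟨s, hs, b, hb⟩ := (hmem _).mp hinv
      apply hs
      have h1 : s = q * b := by
        apply Subtype.ext
        push_cast
        rw [← hb, ← mul_assoc, mul_inv_cancel₀ h0, one_mul]
      rw [h1]
      exact Q.mul_mem_right _ hq
  have hunit : ∀ s : Zs, s ∉ Q → ((s : Qb))⁻¹ ∈ A := by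
    intro s hs
    have hs0 : (s : Qb) ≠ 0 := by
      intro h0
      apply hs
      have : s = 0 := Subtype.ext h0
      rw [this]; exact Q.zero_mem
    exact (hmem _).mpr ⟨s, hs, 1, by rw [inv_mul_cancel₀ hs0]; rfl⟩
  have hstab : ∀ τ : Gq, τ • Q = Q → ∀ x : Qb, x ∈ A → τ x ∈ A := by
    intro τ hτ x hx
    obtain ⟨s, hs, b, hb⟩ := (hmem x).mp hx
    refine (hmem _).mpr ⟨τ • s, ?_, τ • b, ?_⟩
    · intro h
      apply hs
      rw [← hτ] at h
      exact (Ideal.smul_mem_pointwise_smul_iff).mp h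
    · rw [coe_smul_Zs, coe_smul_Zs, ← map_mul, hb]
  have hσinv : σ⁻¹ • Q = Q := by rw [inv_smul_eq_iff, hσQ]
  have hdec : σ ∈ A.decompositionSubgroup ℚ := by
    rw [MulAction.mem_stabilizer_iff]
    ext x
    rw [ValuationSubring.mem_pointwise_smul_iff_inv_smul_mem]
    constructor
    · intro h
      have h1 := hstab σ hσQ _ h
      rwa [AlgEquiv.smul_def, AlgEquiv.aut_inv, AlgEquiv.apply_symm_apply] at h1
    · intro h
      exact hstab σ⁻¹ hσinv x h
  refine ⟨A, σ, ?_, hdec, ?_⟩
  · -- lies over `ℓ`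
    have hℓQ : ((ℓ : ℤ) : Zs) ∈ Q := by
      have : (ℓ : ℤ) ∈ Q.under ℤ := by
        rw [← hQP.over]; exact Ideal.subset_span rfl
      exact this
    have := hQnon _ hℓQ
    simpa [ValuationSubring.LiesOverPrime] using this
  · -- Frobenius on the residue field
    intro x
    obtain ⟨a, rfl⟩ := IsLocalRing.residue_surjective x
    obtain ⟨s, hs, b, hb⟩ := (hmem a).mp a.2
    set g : A.decompositionSubgroup ℚ := ⟨σ, hdec⟩ with hg
    have hab : a * (⟨s, hZA s⟩ : A) = ⟨b, hZA b⟩ := Subtype.ext hb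
    have key : ∀ c : Zs, IsLocalRing.residue A (g • (⟨c, hZA c⟩ : A)) =
        (IsLocalRing.residue A (⟨c, hZA c⟩ : A)) ^ ℓ := by
      intro c
      rw [← map_pow, ← sub_eq_zero, ← map_sub, IsLocalRing.residue_eq_zero_iff,
        ← ValuationSubring.coe_mem_nonunits_iff]
      have := hQnon _ (hσ c)
      exact this
    have hsres : IsLocalRing.residue A (⟨s, hZA s⟩ : A) ≠ 0 := by
      rw [Ne, IsLocalRing.residue_eq_zero_iff]
      intro hmax
      have hu : IsUnit (⟨s, hZA s⟩ : A) := by
        refine IsUnit.of_mul_eq_one (⟨(s : Qb)⁻¹, hunit s hs⟩ : A) (Subtype.ext ?_)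
        have hs0 : (s : Qb) ≠ 0 := by
          intro h0
          apply hs
          have : s = 0 := Subtype.ext h0
          rw [this]; exact Q.zero_mem
        exact mul_inv_cancel₀ hs0
      exact (IsLocalRing.mem_maximalIdeal _).mp hmax hu
    have h1 : IsLocalRing.residue A (g • a) * IsLocalRing.residue A (g • (⟨s, hZA s⟩ : A)) =
        IsLocalRing.residue A (g • (⟨b, hZA b⟩ : A)) := by
      rw [← map_mul, ← smul_mul', hab]
    rw [key s, key b, ← hab, map_mul, mul_pow] at h1
    have h2 := mul_right_cancel₀ (pow_ne_zero ℓ hsres) h1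
    rw [← IsLocalRing.ResidueField.residue_smul]
    exact h2

end Concrete

end Fermat.Agent.Lib.FrobeniusPair
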