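/-
Galois descent for finite-dimensional spaces of coefficient sequences.

Main results (all in namespace `Fermat.Agent.Lib.GaloisDescent`):

* `exists_rat_of_forall_ringEquiv_fixed` : a complex number fixed by every ring
  automorphism of `ℂ` is rational.
* `mem_range_algebraMap_of_forall_algEquiv_fixed` : the same over any characteristic zero
  base field `k` and algebraically closed `K`.
* `span_fixed_eq_of_stable` : a finite-dimensional subspace of `ι → K` which is stable
  under a set of coordinatewise automorphisms is spanned by its coordinatewise fixed vectors.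
* `span_rat_eq_of_aut_stable`, `span_rat_eq_top_of_aut_stable` : the specialisations to
  `ℂ` and `ℚ` used for q-expansions.
-/
import Mathlib

set_option autoImplicit false

namespace Fermat.Agent.Lib.GaloisDescent

open MvPolynomial

section Extend

variable {L K : Type*} [Field L] [Field K] [Algebra L K] [IsAlgClosed K]

/-- Any ring automorphism of the polynomial ring on a transcendence basis extends to the
algebraically closed field. -/
theorem exists_ringEquiv_aeval {ι : Type*} {v : ι → K} (hv : IsTranscendenceBasis L v)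
    (e₀ : MvPolynomial ι L ≃+* MvPolynomial ι L) :
    ∃ σ : K ≃+* K, ∀ p : MvPolynomial ι L, σ (aeval v p) = aeval v (e₀ p) := by
  have : IsAlgClosure (Algebra.adjoin L (Set.range v)) K :=
    IsAlgClosed.isAlgClosure_of_transcendence_basis v hv
  let e : Algebra.adjoin L (Set.range v) ≃+* Algebra.adjoin L (Set.range v) :=
    hv.1.aevalEquiv.symm.toRingEquiv.trans (e₀.trans hv.1.aevalEquiv.toRingEquiv)
  refine ⟨IsAlgClosure.equivOfEquiv K K e, fun p => ?_⟩
  rw [← hv.1.algebraMap_aevalEquiv p, IsAlgClosure.equivOfEquiv_algebraMap,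
    ← hv.1.algebraMap_aevalEquiv (e₀ p)]
  congr 1
  simp [e]

open Classical in
/-- The shift automorphism `X i₀ ↦ X i₀ + 1` of a polynomial ring. -/
noncomputable def shiftEquiv {ι : Type*} (i₀ : ι) : MvPolynomial ι L ≃ₐ[L] MvPolynomial ι L :=
  AlgEquiv.ofAlgHom
    (aeval fun i => if i = i₀ then X i + 1 else X i)
    (aeval fun i => if i = i₀ then X i - 1 else X i)
    (by
      ext i
      by_cases h : i = i₀ <;> simp [h])
    (by
      ext i
      by_cases h : i = i₀ <;> simp [h])

theorem shiftEquiv_X_self {ι : Type*} (i₀ : ι) :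
    shiftEquiv (L := L) i₀ (X i₀) = X i₀ + 1 := by
  simp [shiftEquiv]

/-- A transcendental element is moved by some automorphism. -/
theorem exists_algEquiv_ne_of_transcendental {x : K} (hx : Transcendental L x) :
    ∃ σ : K ≃ₐ[L] K, σ x ≠ x := by
  have hind : AlgebraicIndepOn L id ({x} : Set K) := by
    rw [AlgebraicIndepOn]
    exact (algebraicIndependent_singleton_iff (⟨x, rfl⟩ : ({x} : Set K))).mpr hx
  obtain ⟨t, hxt, ht⟩ := exists_isTranscendenceBasis_superset hind
  let i₀ : t := ⟨x, hxt rfl⟩
  obtain ⟨σ, hσ⟩ := exists_ringEquiv_aeval ht (shiftEquiv (L := L) i₀).toRingEquiv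
  have hcomm : ∀ c : L, σ (algebraMap L K c) = algebraMap L K c := by
    intro c
    have := hσ (C c)
    rw [AlgEquiv.coe_ringEquiv, ← MvPolynomial.algebraMap_eq,
      AlgEquiv.commutes, MvPolynomial.algebraMap_eq, aeval_C] at this
    exact this
  refine ⟨AlgEquiv.ofRingEquiv (f := σ) hcomm, ?_⟩
  have h1 := hσ (X i₀)
  rw [aeval_X] at h1
  have h2 : σ x = x + 1 := by
    rw [show x = ((↑) : t → K) i₀ from rfl, h1]
    simp [shiftEquiv_X_self, i₀]
  show σ x ≠ x
  rw [h2]
  simp

end Extend

section Alg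

variable {k K : Type*} [Field k] [Field K] [Algebra k K] [IsAlgClosed K] [CharZero k]

/-- An algebraic element outside the base field is moved by some automorphism. -/
theorem exists_algEquiv_ne_of_isAlgebraic {x : K} (hx : IsAlgebraic k x)
    (hxk : x ∉ Set.range (algebraMap k K)) : ∃ σ : K ≃ₐ[k] K, σ x ≠ x := by
  let Q : IntermediateField k K := algebraicClosure k K
  have hxQ : x ∈ Q := mem_algebraicClosure_iff.mpr hx
  have : IsAlgClosure k Q := algebraicClosure.isAlgClosure k K
  have : IsGalois k Q := IsAlgClosure.isGalois k Q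
  let xq : Q := ⟨x, hxQ⟩
  have hxq : xq ∉ Set.range (algebraMap k Q) := by
    rintro ⟨c, hc⟩
    exact hxk ⟨c, by
      have := congrArg (algebraMap Q K) hc
      rwa [← IsScalarTower.algebraMap_apply] at this⟩
  rw [InfiniteGalois.mem_range_algebraMap_iff_fixed] at hxq
  push Not at hxq
  obtain ⟨τ, hτ⟩ := hxq
  obtain ⟨s, hs⟩ := exists_isTranscendenceBasis Q K
  obtain ⟨σ, hσ⟩ := exists_ringEquiv_aeval hs (MvPolynomial.mapEquiv s τ.toRingEquiv)
  have hσQ : ∀ y : Q, σ (y : K) = ((τ y : Q) : K) := by
    intro y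
    have := hσ (C y)
    simpa using this
  have hcomm : ∀ c : k, σ (algebraMap k K c) = algebraMap k K c := by
    intro c
    have h1 := hσQ (algebraMap k Q c)
    rw [τ.commutes] at h1
    exact h1
  refine ⟨AlgEquiv.ofRingEquiv (f := σ) hcomm, ?_⟩
  show σ x ≠ x
  have h2 := hσQ xq
  rw [show ((xq : Q) : K) = x from rfl] at h2
  rw [h2]
  intro h3
  exact hτ (Subtype.ext h3)

/-- The fixed field of the automorphism group of an algebraically closed field over a
subfield `k` of characteristic zero is `k`. -/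
theorem mem_range_algebraMap_of_forall_algEquiv_fixed (x : K)
    (hx : ∀ σ : K ≃ₐ[k] K, σ x = x) : x ∈ Set.range (algebraMap k K) := by
  by_contra hxk
  by_cases halg : IsAlgebraic k x
  · obtain ⟨σ, hσ⟩ := exists_algEquiv_ne_of_isAlgebraic halg hxk
    exact hσ (hx σ)
  · obtain ⟨σ, hσ⟩ := exists_algEquiv_ne_of_transcendental (L := k) halg
    exact hσ (hx σ)

end Alg

/-- The fixed field of `Aut(ℂ)` is `ℚ`. -/
theorem exists_rat_of_forall_ringEquiv_fixed (x : ℂ) (hx : ∀ σ : ℂ ≃+* ℂ, σ x = x) :
    ∃ r : ℚ, x = (r : ℂ) := by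
  obtain ⟨r, hr⟩ := mem_range_algebraMap_of_forall_algEquiv_fixed (k := ℚ) x
    (fun σ => hx σ.toRingEquiv)
  exact ⟨r, by rw [← hr]; simp⟩

section Descent

open Module

/-- A finite-dimensional subspace of `ι → K` stable under a set `𝒢` of automorphisms of `K`
acting coordinatewise is spanned by its vectors with `𝒢`-fixed coordinates. -/
theorem span_fixed_eq_of_stable {K : Type*} [Field K] {ι : Type*} (𝒢 : Set (K ≃+* K))
    (W : Submodule K (ι → K)) [FiniteDimensional K W]
    (hW : ∀ σ ∈ 𝒢, ∀ w ∈ W, (fun i => σ (w i)) ∈ W) :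
    Submodule.span K {w | w ∈ W ∧ ∀ i, ∀ σ ∈ 𝒢, σ (w i) = w i} = W := by
  classical
  refine le_antisymm (Submodule.span_le.mpr fun w hw => hw.1) ?_
  -- evaluation functionals on `W`
  let ev : ι → Module.Dual K W := fun i => (LinearMap.proj i).comp W.subtype
  have hev : ∀ i (w : W), ev i w = (w : ι → K) i := fun i w => rfl
  have hsep : ∀ w : W, (∀ i, ev i w = 0) → w = 0 := by
    intro w hw
    apply Subtype.ext
    funext i
    exact hw i
  have hspan : Submodule.span K (Set.range ev) = ⊤ := by
    have h1 : (Submodule.span K (Set.range ev)).dualCoannihilator = ⊥ := by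
      rw [eq_bot_iff]
      intro w hw
      rw [Submodule.mem_dualCoannihilator] at hw
      exact (Submodule.mem_bot K).mpr
        (hsep w fun i => hw _ (Submodule.subset_span ⟨i, rfl⟩))
    rw [← Subspace.dualCoannihilator_dualAnnihilator_eq
      (W := Submodule.span K (Set.range ev)), h1, Submodule.dualAnnihilator_bot]
  obtain ⟨κ, a, -, ha_span, ha_li⟩ := exists_linearIndependent' K ev
  let β : Basis κ K (Module.Dual K W) := Basis.mk ha_li (by rw [ha_span, hspan])
  have hβ : ∀ k', β k' = ev (a k') := fun k' => by simp [β]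
  have : Finite κ := Module.Finite.finite_basis β
  have := Fintype.ofFinite κ
  let B : Basis κ K W := β.dualBasis.map (Module.evalEquiv K W).symm
  have hB : ∀ j k', ev (a k') (B j) = if k' = j then 1 else 0 := by
    intro j k'
    rw [← hβ]
    have : (Module.evalEquiv K W) (B j) = β.dualBasis j := by simp [B]
    have h2 := congrArg (fun f => f (β k')) this
    simp only [Module.evalEquiv_apply, Module.Dual.eval_apply] at h2
    rw [h2, Basis.dualBasis_apply_self]
  have hBfix : ∀ j, ∀ i, ∀ σ ∈ 𝒢, σ ((B j : ι → K) i) = (B j : ι → K) i := by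
    intro j i σ hσ
    let w' : W := ⟨fun i => σ ((B j : ι → K) i), hW σ hσ _ (B j).2⟩
    have hw' : w' = B j := by
      rw [← sub_eq_zero]
      rw [← Module.forall_dual_apply_eq_zero_iff K]
      intro φ
      have hφ : φ ∈ Submodule.span K (Set.range β) := by rw [β.span_eq]; trivial
      induction hφ using Submodule.span_induction with
      | mem f hf =>
        obtain ⟨k', rfl⟩ := hf
        rw [hβ, map_sub, hB j k', hev]
        show σ ((B j : ι → K) (a k')) - _ = 0
        rw [← hev, hB j k']
        split_ifs <;> simp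
      | zero => simp
      | add f g _ _ hf hg => rw [LinearMap.add_apply, hf, hg, add_zero]
      | smul c f _ hf => rw [LinearMap.smul_apply, hf, smul_zero]
    have := congrArg (fun u : W => (u : ι → K) i) hw'
    exact this
  intro w hw
  have hmem : (⟨w, hw⟩ : W) ∈ Submodule.span K (Set.range B) := by rw [B.span_eq]; trivial
  have := Submodule.apply_mem_span_image_of_mem_span W.subtype hmem
  refine Submodule.span_mono ?_ this
  rintro _ ⟨_, ⟨j, rfl⟩, rfl⟩
  exact ⟨(B j).2, hBfix j⟩

/-- A finite-dimensional subspace of `ι → ℂ` which is stable under all field automorphisms of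
`ℂ` acting coordinatewise is spanned by its vectors with rational coordinates. -/
theorem span_rat_eq_of_aut_stable {ι : Type*} (W : Submodule ℂ (ι → ℂ)) [FiniteDimensional ℂ W]
    (hW : ∀ σ : ℂ ≃+* ℂ, ∀ w ∈ W, (fun i => σ (w i)) ∈ W) :
    Submodule.span ℂ {w | w ∈ W ∧ ∀ i, ∃ r : ℚ, w i = (r : ℂ)} = W := by
  have h := span_fixed_eq_of_stable (Set.univ : Set (ℂ ≃+* ℂ)) W (fun σ _ => hW σ)
  have hset : {w | w ∈ W ∧ ∀ i, ∀ σ ∈ (Set.univ : Set (ℂ ≃+* ℂ)), σ (w i) = w i} =
      {w | w ∈ W ∧ ∀ i, ∃ r : ℚ, w i = (r : ℂ)} := by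
    ext w
    constructor
    · rintro ⟨hw, hfix⟩
      exact ⟨hw, fun i => exists_rat_of_forall_ringEquiv_fixed _ fun σ => hfix i σ trivial⟩
    · rintro ⟨hw, hrat⟩
      refine ⟨hw, fun i σ _ => ?_⟩
      obtain ⟨r, hr⟩ := hrat i
      rw [hr, map_ratCast]
  rw [← hset]
  exact h

/-- Abstract form used for q-expansions: if `c : V → (ι → ℂ)` is an injective linear
"coefficient" map on a finite-dimensional space, and the image is stable under every
automorphism of `ℂ` acting on coefficients, then `V` is spanned by the vectors all of whose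
coefficients are rational. -/
theorem span_rat_eq_top_of_aut_stable {V : Type*} [AddCommGroup V] [Module ℂ V]
    [FiniteDimensional ℂ V] {ι : Type*} (c : V →ₗ[ℂ] (ι → ℂ)) (hc : Function.Injective c)
    (hσ : ∀ σ : ℂ ≃+* ℂ, ∀ f : V, ∃ g : V, ∀ i, c g i = σ (c f i)) :
    Submodule.span ℂ {f : V | ∀ i, ∃ r : ℚ, c f i = (r : ℂ)} = ⊤ := by
  have hW : ∀ σ : ℂ ≃+* ℂ, ∀ w ∈ LinearMap.range c, (fun i => σ (w i)) ∈ LinearMap.range c := by
    rintro σ _ ⟨f, rfl⟩
    obtain ⟨g, hg⟩ := hσ σ f
    exact ⟨g, funext hg⟩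
  have h := span_rat_eq_of_aut_stable (LinearMap.range c) hW
  apply Submodule.map_injective_of_injective hc
  rw [Submodule.map_span, Submodule.map_top]
  convert h using 2
  ext w
  constructor
  · rintro ⟨f, hf, rfl⟩
    exact ⟨⟨f, rfl⟩, hf⟩
  · rintro ⟨⟨f, rfl⟩, hf⟩
    exact ⟨f, hf, rfl⟩

end Descent

end Fermat.Agent.Lib.GaloisDescent
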