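import Mathlib

set_option autoImplicit false

namespace Fermat.Agent.Lib.Gamma0Index

open scoped MatrixGroups

/-- If `φ : G → T` into a finite type separates left cosets of `H`, then `H.index ≤ card T`. -/
theorem index_le_card_of_separating {G : Type*} [Group G] (H : Subgroup G) {T : Type*} [Finite T]
    (φ : G → T) (hφ : ∀ g h : G, φ g = φ h → g⁻¹ * h ∈ H) : H.index ≤ Nat.card T := by
  unfold Subgroup.index
  refine Nat.card_le_card_of_injective (fun q : G ⧸ H => φ q.out) ?_
  intro q q' hqq'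
  have h1 := hφ _ _ hqq'
  have h2 : (QuotientGroup.mk q.out : G ⧸ H) = QuotientGroup.mk q'.out :=
    QuotientGroup.eq.mpr h1
  simpa using h2

/-- Two elements of `SL(2, ℤ)` whose first columns agree mod `N` lie in the same left coset of
`Γ₀(N)`. -/
theorem inv_mul_mem_Gamma0_of_col_eq (N : ℕ) (g h : SL(2, ℤ))
    (h10 : (g 1 0 : ZMod N) = (h 1 0 : ZMod N)) (h00 : (g 0 0 : ZMod N) = (h 0 0 : ZMod N)) :
    g⁻¹ * h ∈ CongruenceSubgroup.Gamma0 N := by
  rw [CongruenceSubgroup.Gamma0_mem]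
  have e : ((g⁻¹ * h) 1 0 : ℤ) = - g 1 0 * h 0 0 + g 0 0 * h 1 0 := by
    rw [Matrix.SpecialLinearGroup.coe_mul, Matrix.SpecialLinearGroup.coe_inv,
      Matrix.adjugate_fin_two]
    simp [Matrix.mul_apply, Fin.sum_univ_two]
  rw [e]
  push_cast
  rw [h10, h00]
  ring

/-- The index of `Γ₀(N)` in `SL(2, ℤ)` is at most `N ^ 2` (crude bound via the first column
mod `N`). -/
theorem index_Gamma0_le_sq (N : ℕ) [NeZero N] : (CongruenceSubgroup.Gamma0 N).index ≤ N ^ 2 := by
  have key := index_le_card_of_separating (CongruenceSubgroup.Gamma0 N)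
    (T := ZMod N × ZMod N) (fun g => ((g 1 0 : ZMod N), (g 0 0 : ZMod N))) ?_
  · simpa [sq] using key
  · intro g h hgh
    simp only [Prod.mk.injEq] at hgh
    exact inv_mul_mem_Gamma0_of_col_eq N g h hgh.1 hgh.2

/-- The index of `Γ₀(2)` in `SL(2, ℤ)` is at most `4` (it is `3`). -/
theorem index_Gamma0_two_le : (CongruenceSubgroup.Gamma0 2).index ≤ 4 := by
  simpa using index_Gamma0_le_sq 2

end Fermat.Agent.Lib.Gamma0Index
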