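import Mathlib
import Fermat.Prelude.Def_CuspForm_HeckeAlgebra
import Fermat.Prelude.Def_CuspForm_IntegralStructure
import Fermat.Prelude.Thm_CuspForm_intLattice_fg
import Fermat.Prelude.Thm_CuspForm_mem_intLattice_of_mem_heckeAlgebra

set_option autoImplicit false

/-!
Bridge lemma: an integral structure on `S_k(Γ₀(N))` (for `1 ≤ k`) forces the Hecke algebra
to be a finitely generated `ℤ`-module.
-/

namespace Fermat.Agent.Lib.HeckeFiniteOfIntegral

open CuspForm

/-- Abstract version: a `ℤ`-subalgebra `T` of `End_ℂ V` stabilising a finitely generated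
`ℤ`-submodule `L` whose `ℂ`-span is everything is a finite `ℤ`-module. -/
theorem finite_of_stable_lattice {V : Type*} [AddCommGroup V] [Module ℂ V]
    (T : Subalgebra ℤ (Module.End ℂ V)) (L : Submodule ℤ V) (hL : L.FG)
    (hspan : Submodule.span ℂ (L : Set V) = ⊤)
    (hstab : ∀ t ∈ T, ∀ f ∈ L, t f ∈ L) : Module.Finite ℤ T := by
  classical
  obtain ⟨s, hs⟩ := hL
  -- evaluation at the generators
  have hsL : ∀ g : s, (g : V) ∈ L := fun g => hs ▸ Submodule.subset_span g.2
  let ev : T →ₗ[ℤ] (s → L) :=
    { toFun := fun t g => ⟨(t : Module.End ℂ V) (g : V), hstab t t.2 _ (hsL g)⟩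
      map_add' := fun t t' => by
        funext g
        apply Subtype.ext
        simp
      map_smul' := fun n t => by
        funext g
        apply Subtype.ext
        simp }
  have hinj : Function.Injective ev := by
    intro t t' h
    apply Subtype.ext
    -- the two endomorphisms agree on the generators, hence on L, hence on V
    have hgen : ∀ g ∈ s, (t : Module.End ℂ V) g = (t' : Module.End ℂ V) g := by
      intro g hg
      have := congrFun h ⟨g, hg⟩
      exact congrArg Subtype.val this
    have hLeq : ∀ f ∈ L, (t : Module.End ℂ V) f = (t' : Module.End ℂ V) f := by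
      intro f hf
      rw [← hs] at hf
      induction hf using Submodule.span_induction with
      | mem x hx => exact hgen x hx
      | zero => simp
      | add x y _ _ hx hy => rw [map_add, map_add, hx, hy]
      | smul a x _ hx =>
        rw [← Int.cast_smul_eq_zsmul ℂ a x, map_smul, map_smul, hx]
    apply LinearMap.ext_on_range (v := fun f : L => (f : V))
    · rw [Subtype.range_coe_subtype]
      exact hspan
    · intro f
      exact hLeq f f.2
  have : Module.Finite ℤ L := Module.Finite.iff_fg.mpr ⟨s, hs⟩
  exact Module.Finite.of_injective ev hinj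

/-- If `S_k(Γ₀(N))` has an integral structure (`1 ≤ k`), then every Hecke algebra
`heckeAlgebra N k S` is a finitely generated `ℤ`-module. -/
theorem moduleFinite_heckeAlgebra_of_hasIntegralStructure (N : ℕ) [NeZero N] {k : ℤ} (hk : 1 ≤ k)
    (S : Set ℕ) (h : CuspForm.HasIntegralStructure N k) :
    Module.Finite ℤ (CuspForm.heckeAlgebra N k S) :=
  finite_of_stable_lattice (CuspForm.heckeAlgebra N k S) (CuspForm.intLattice N k)
    (CuspForm.intLattice_fg N k) h
    (fun _ ht _ hf => CuspForm.mem_intLattice_of_mem_heckeAlgebra hk ht hf)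

end Fermat.Agent.Lib.HeckeFiniteOfIntegral
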