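import Mathlib
import Fermat.Prelude.Def_FLTPrelim_Ramification
import Fermat.Agent.Lib.FrobeniusExists

/-
`Fermat.Agent.Lib.InertiaGenerate` (helper42): inertia groups of valuation subrings of `ℚ̄`
versus Mathlib's `Ideal.inertia` at finite level, and Minkowski's theorem at infinite level.

Main results (all for `Qb = AlgebraicClosure ℚ`, `GQ = Gal(Qb/ℚ)`, `Zb = integralClosure ℤ Qb`):

* `center A : Ideal Zb` : the prime of `ℤ̄` cut out by a valuation subring `A` of `ℚ̄`.
* `mem_inertiaSubgroupIn_of_center` : `τ • center A = center A` and `τ` trivial on `ℤ̄ / center A`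
  imply `τ ∈ A.inertiaSubgroupIn ℚ` (the Prelude inertia group).
* `exists_mem_inertiaSubgroupIn_restrict` (**lifting lemma, G1**) : for a finite Galois
  `K : IntermediateField ℚ Qb`, every element of Mathlib's
  `((center A).under (𝓞 K)).inertia Gal(K/ℚ)` is the restriction of an element of
  `A.inertiaSubgroupIn ℚ`.
* `exists_prime_forall_inertia_ne_bot` : Minkowski + `e = |I|` for a Galois number field `≠ ℚ`.
* `eq_bot_of_forall_inertia_restrict_eq_one` (**G2**) : a finite Galois `K ⊆ ℚ̄` on which all inertia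
  groups act trivially is `ℚ`.
* `eq_top_of_isOpen_of_normal_of_inertia_le` : an open normal subgroup of `G_ℚ` containing all
  inertia groups is `⊤`.
* `monoidHom_eq_one_of_inertia` (**G3**) : a homomorphism `G_ℚ → M` with open kernel killing all
  inertia groups is trivial.
* `mem_inertiaSubgroupIn_iff` / `inertiaSubgroupIn_eq` : `A.inertiaSubgroupIn ℚ = (center A).inertia GQ`.
* `center_smul`, `liesOverPrime_smul`, `conj_mem_inertiaSubgroupIn` : behaviour under conjugation.
* `exists_valuationSubring_under_eq` : every non-zero prime of `𝓞 K` is `(center A).under (𝓞 K)`.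
* `restrictNormalHom_mem_inertia`, `map_restrictNormalHom_inertiaSubgroupIn` :
  `(A.inertiaSubgroupIn ℚ).map (restrictNormalHom K) = ((center A).under (𝓞 K)).inertia Gal(K/ℚ)`.
* `eq_top_of_isOpen_of_inertia_le` : an open subgroup of `G_ℚ` containing all inertia groups is `⊤`.
-/

set_option autoImplicit false
set_option linter.style.haveILetI false
set_option linter.unusedSectionVars false
set_option synthInstance.maxHeartbeats 200000

open scoped NumberField Pointwise
open Fermat.Agent.Lib.FrobeniusExists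

namespace Fermat.Agent.Lib.InertiaGenerate

attribute [local instance] isAlgebraic_Qb isAlgClosure_Qb isGalois_Qb

section FiniteLevel

variable (K : Type*) [Field K] [NumberField K] [IsGalois ℚ K]

/-- A Galois number field `K ≠ ℚ` has a rational prime `p` such that the inertia group of every
prime of `𝓞 K` above `p` is non-trivial. -/
theorem exists_prime_forall_inertia_ne_bot (H : 1 < Module.finrank ℚ K) :
    ∃ p : ℕ, p.Prime ∧ ∀ (P : Ideal (𝓞 K)) (_ : P.IsPrime), (p : 𝓞 K) ∈ P →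
      ∃ τ : Gal(K/ℚ), τ ∈ P.inertia Gal(K/ℚ) ∧ τ ≠ 1 := by
  obtain ⟨p, hp, hP⟩ := NumberField.exists_not_isUnramifiedAt_int_of_isGalois (K := K) (𝒪 := 𝓞 K) H
  refine ⟨p, hp, fun P hPprime hpP => ?_⟩
  have hnot := hP P hPprime hpP
  by_contra hcon
  push Not at hcon
  apply hnot
  have hbot : P.inertia Gal(K/ℚ) = ⊥ := by
    rw [eq_bot_iff]
    intro τ hτ
    exact hcon τ hτ
  have hpz : Prime (p : ℤ) := Nat.prime_iff_prime_int.mp hp
  have hlies : P.LiesOver (Ideal.span {(p : ℤ)}) :=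
    (Ideal.liesOver_span_iff hPprime.ne_top hpz).mpr (by simpa using hpP)
  have hpp : (Ideal.span {(p : ℤ)}).IsPrime :=
    (Ideal.span_singleton_prime hpz.ne_zero).mpr hpz
  have hcard := Ideal.card_inertia_eq_ramificationIdxIn (G := Gal(K/ℚ))
    (Ideal.span {(p : ℤ)}) P
  rw [hbot, Subgroup.card_bot] at hcard
  rw [← Ideal.ramificationIdx_eq_one_iff]
  rw [← Ideal.ramificationIdxIn_eq_ramificationIdx (Ideal.span {(p : ℤ)}) P Gal(K/ℚ), ← hcard]

end FiniteLevel

section Center

variable (A : ValuationSubring Qb)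

/-- the inclusion `ℤ̄ → A`. -/
noncomputable def toA : Zb →+* A where
  toFun b := ⟨b, isIntegral_int_mem A b.2⟩
  map_one' := rfl
  map_mul' _ _ := rfl
  map_zero' := rfl
  map_add' _ _ := rfl

/-- the centre of `A` on `ℤ̄`. -/
noncomputable def center : Ideal Zb := (IsLocalRing.maximalIdeal A).comap (toA A)

theorem mem_center {b : Zb} : b ∈ center A ↔ (b : Qb) ∈ A.nonunits := by
  rw [center, Ideal.mem_comap]
  exact (A.coe_mem_nonunits_iff (a := toA A b)).symm

instance center_isPrime : (center A).IsPrime := Ideal.comap_isPrime (toA A) _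

theorem coe_smul (g : GQ) (b : Zb) : ((g • b : Zb) : Qb) = g (b : Qb) := rfl

variable {A}

/-- an automorphism stabilising the centre maps units of `A` in `ℤ̄` to units. -/
theorem not_mem_nonunits_of_stab {τ : GQ} (hτ : τ • center A = center A)
    (b : Qb) (hb : IsIntegral ℤ b) (hbA : b ∉ A.nonunits) : τ b ∉ A.nonunits := by
  intro hmem
  apply hbA
  have h2 : (τ • (⟨b, hb⟩ : Zb)) ∈ τ • center A := by
    rw [hτ, mem_center]
    exact hmem
  rw [Ideal.smul_mem_pointwise_smul_iff] at h2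
  exact (mem_center A).mp h2

/-- an automorphism stabilising the centre of `A` lies in the decomposition group. -/
theorem mem_decompositionSubgroup_of_stab {q : ℕ} (hq : q.Prime) (hA : A.LiesOverPrime q)
    {τ : GQ} (hτ : τ • center A = center A) : τ ∈ A.decompositionSubgroup ℚ := by
  have hA' : (q : Qb) ∈ A.nonunits := hA
  have hτinv : τ⁻¹ • center A = center A := by
    rw [inv_smul_eq_iff, hτ]
  have h1 : ∀ x : Qb, x ∈ A → τ x ∈ A := fun x hx =>
    map_mem_of_stab A hq hA' τ (not_mem_nonunits_of_stab hτ) hx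
  have h2 : ∀ x : Qb, x ∈ A → (τ⁻¹ : GQ) x ∈ A := fun x hx =>
    map_mem_of_stab A hq hA' _ (not_mem_nonunits_of_stab hτinv) hx
  rw [MulAction.mem_stabilizer_iff]
  apply SetLike.ext
  intro x
  rw [ValuationSubring.mem_pointwise_smul_iff_inv_smul_mem, AlgEquiv.smul_def]
  constructor
  · intro hx
    have := h1 _ hx
    rwa [← AlgEquiv.mul_apply, mul_inv_cancel, AlgEquiv.one_apply] at this
  · exact h2 x

/-- **Inertia criterion**: an automorphism stabilising the centre `𝔓` of `A` on `ℤ̄` and acting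
trivially on `ℤ̄ / 𝔓` lies in the inertia group of `A`. -/
theorem mem_inertiaSubgroupIn_of_center {q : ℕ} (hq : q.Prime) (hA : A.LiesOverPrime q)
    {τ : GQ} (hτ : τ • center A = center A) (hτ' : ∀ b : Zb, τ • b - b ∈ center A) :
    τ ∈ A.inertiaSubgroupIn ℚ := by
  have hA' : (q : Qb) ∈ A.nonunits := hA
  have hdec := mem_decompositionSubgroup_of_stab hq hA hτ
  refine ⟨⟨τ, hdec⟩, ?_, rfl⟩
  show (⟨τ, hdec⟩ : A.decompositionSubgroup ℚ) ∈ A.inertiaSubgroup ℚ
  rw [ValuationSubring.inertiaSubgroup, MonoidHom.mem_ker]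
  ext y
  obtain ⟨a, rfl⟩ := IsLocalRing.residue_surjective y
  show (⟨τ, hdec⟩ : A.decompositionSubgroup ℚ) • (IsLocalRing.residue A a) = IsLocalRing.residue A a
  rw [← IsLocalRing.ResidueField.residue_smul, ← sub_eq_zero, ← map_sub,
    IsLocalRing.residue_eq_zero_iff, ← A.coe_mem_nonunits_iff]
  show τ (a : Qb) - (a : Qb) ∈ A.nonunits
  obtain ⟨s, hs, hsA, hsx⟩ := exists_unit_integral_mul A hq hA' a.2 (isAlgebraic_int_Qb a)
  have hs0 : s ≠ 0 := fun h => hsA (h ▸ A.nonunits.zero_mem)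
  have hτs0 : τ s ≠ 0 := (_root_.map_ne_zero _).mpr hs0
  have hτsA : τ s ∉ A.nonunits := not_mem_nonunits_of_stab hτ s hs hsA
  have e1 : τ s - s ∈ A.nonunits := (mem_center A).mp (hτ' ⟨s, hs⟩)
  have e2 : τ (s * a) - s * a ∈ A.nonunits := (mem_center A).mp (hτ' ⟨s * a, hsx⟩)
  rw [map_mul] at e2
  have key : τ (a : Qb) - (a : Qb) =
      ((τ s * τ (a : Qb) - s * (a : Qb)) - (τ s - s) * (a : Qb)) * (τ s)⁻¹ := by
    field_simp
    ring
  rw [key, mul_comm]
  refine mul_mem_nonunits_of_mem A (inv_mem_of_not_mem_nonunits A hτsA) ?_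
  refine A.nonunits.sub_mem e2 ?_
  rw [mul_comm]
  exact mul_mem_nonunits_of_mem A a.2 e1


/-- **Converse of the inertia criterion**: elements of the Prelude inertia group act trivially
modulo the centre. -/
theorem sub_mem_center_of_mem_inertiaSubgroupIn {τ : GQ} (hτ : τ ∈ A.inertiaSubgroupIn ℚ)
    (b : Zb) : τ • b - b ∈ center A := by
  obtain ⟨d, hd, rfl⟩ := hτ
  have hd' : d ∈ A.inertiaSubgroup ℚ := hd
  rw [ValuationSubring.inertiaSubgroup, MonoidHom.mem_ker] at hd'
  have h1 : d • (IsLocalRing.residue A (toA A b)) = IsLocalRing.residue A (toA A b) := by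
    have := congrArg (fun f : RingAut (IsLocalRing.ResidueField A) =>
      f (IsLocalRing.residue A (toA A b))) hd'
    exact this
  rw [← IsLocalRing.ResidueField.residue_smul, ← sub_eq_zero, ← map_sub,
    IsLocalRing.residue_eq_zero_iff, ← A.coe_mem_nonunits_iff] at h1
  rw [mem_center]
  exact h1

/-- the Prelude inertia group of `A` is Mathlib's inertia group of the centre of `A` on `ℤ̄`. -/
theorem mem_inertiaSubgroupIn_iff {q : ℕ} (hq : q.Prime) (hA : A.LiesOverPrime q) {τ : GQ} :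
    τ ∈ A.inertiaSubgroupIn ℚ ↔ τ ∈ (center A).inertia GQ :=
  ⟨fun h b => sub_mem_center_of_mem_inertiaSubgroupIn h b,
    fun h => mem_inertiaSubgroupIn_of_center hq hA (Ideal.inertia_le_stabilizer _ h) h⟩

theorem inertiaSubgroupIn_eq {q : ℕ} (hq : q.Prime) (hA : A.LiesOverPrime q) :
    A.inertiaSubgroupIn ℚ = (center A).inertia GQ :=
  SetLike.ext fun _ => mem_inertiaSubgroupIn_iff hq hA

theorem mem_nonunits_smul_iff (g : GQ) (x : Qb) :
    x ∈ (g • A).nonunits ↔ (g⁻¹ : GQ) x ∈ A.nonunits := by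
  rw [ValuationSubring.mem_nonunits_iff_or, ValuationSubring.mem_nonunits_iff_or,
    ValuationSubring.mem_pointwise_smul_iff_inv_smul_mem, AlgEquiv.smul_def, map_inv₀,
    map_eq_zero_iff _ (g⁻¹ : GQ).injective]

theorem liesOverPrime_smul {q : ℕ} (hA : A.LiesOverPrime q) (g : GQ) :
    (g • A).LiesOverPrime q := by
  show (q : Qb) ∈ (g • A).nonunits
  rw [mem_nonunits_smul_iff, map_natCast]
  exact hA

theorem center_smul (g : GQ) : center (g • A) = g • center A := by
  ext b
  rw [mem_center, mem_nonunits_smul_iff, Ideal.mem_pointwise_smul_iff_inv_smul_mem, mem_center]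
  rfl

/-- conjugates of inertia elements are inertia elements of the conjugate valuation ring. -/
theorem conj_mem_inertiaSubgroupIn {q : ℕ} (hq : q.Prime) (hA : A.LiesOverPrime q) (g : GQ)
    {τ : GQ} (hτ : τ ∈ A.inertiaSubgroupIn ℚ) :
    g * τ * g⁻¹ ∈ (g • A).inertiaSubgroupIn ℚ := by
  rw [mem_inertiaSubgroupIn_iff hq (liesOverPrime_smul hA g), center_smul]
  rw [mem_inertiaSubgroupIn_iff hq hA] at hτ
  intro b
  have h1 : τ • g⁻¹ • b - g⁻¹ • b ∈ center A := hτ (g⁻¹ • b)
  rw [← Ideal.smul_mem_pointwise_smul_iff (a := g), smul_sub, smul_inv_smul] at h1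
  show (g * τ * g⁻¹) • b - b ∈ g • center A
  rw [mul_smul, mul_smul]
  exact h1

end Center

section Lift

variable (K : IntermediateField ℚ Qb) [FiniteDimensional ℚ K]

theorem numberField_K : NumberField K :=
  { to_charZero := inferInstance, to_finiteDimensional := inferInstance }

attribute [local instance] numberField_K

/-- `𝓞 K → ℤ̄`. -/
noncomputable def ιK : 𝓞 K →+* Zb where
  toFun x := ⟨((x : K) : Qb), map_isIntegral_int (algebraMap K Qb) x.2⟩
  map_one' := Subtype.ext (by simp)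
  map_mul' x y := Subtype.ext (by simp)
  map_zero' := Subtype.ext (by simp)
  map_add' x y := Subtype.ext (by simp)

theorem coe_ιK (x : 𝓞 K) : ((ιK K x : Zb) : Qb) = ((x : K) : Qb) := rfl

/-- the `𝓞 K`-algebra structure on `ℤ̄`. -/
@[reducible] noncomputable def algOK : Algebra (𝓞 K) Zb := (ιK K).toAlgebra

attribute [local instance] algOK

theorem algebraMap_OK_apply (x : 𝓞 K) : algebraMap (𝓞 K) Zb x = ιK K x := rfl

variable [IsGalois ℚ K]

theorem ιK_smul (σ : GQ) (x : 𝓞 K) :
    ιK K ((AlgEquiv.restrictNormalHom K σ) • x) = σ • ιK K x := by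
  apply Subtype.ext
  exact AlgEquiv.restrictNormal_commutes σ K (x : K)

/-- elements of `Gal(ℚ̄/K)` restrict to the identity on `K`. -/
theorem restrictNormalHom_restrictScalars (h : Gal(Qb/K)) :
    AlgEquiv.restrictNormalHom K (AlgEquiv.restrictScalars ℚ h : GQ) = 1 := by
  ext x
  have h1 := AlgEquiv.restrictNormal_commutes (AlgEquiv.restrictScalars ℚ h : GQ) K x
  have h2 : (AlgEquiv.restrictScalars ℚ h : GQ) (algebraMap K Qb x) = algebraMap K Qb x :=
    h.commutes x
  rw [h2] at h1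
  exact congrArg _ ((algebraMap K Qb).injective h1)

theorem smulComm_OK : SMulCommClass Gal(Qb/K) (𝓞 K) Zb where
  smul_comm g x b := Subtype.ext (by
    show g (((x • b : Zb) : Zb) : Qb) = (((x • (g • b) : Zb) : Zb) : Qb)
    rw [Algebra.smul_def, Algebra.smul_def]
    show g (((x : K) : Qb) * (b : Qb)) = ((x : K) : Qb) * g (b : Qb)
    rw [map_mul]
    congr 1
    exact g.commutes (x : K))

attribute [local instance] smulComm_OK

theorem isInvariant_OK : Algebra.IsInvariant (𝓞 K) Zb Gal(Qb/K) where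
  isInvariant b hb := by
    have hfix : (b : Qb) ∈ Set.range (algebraMap K Qb) := by
      rw [InfiniteGalois.mem_range_algebraMap_iff_fixed]
      intro g
      exact congrArg Subtype.val (hb g)
    obtain ⟨r, hr⟩ := hfix
    have hrint : IsIntegral ℤ r := by
      have : IsIntegral ℤ (algebraMap K Qb r) := hr ▸ b.2
      exact (isIntegral_algebraMap_iff (algebraMap K Qb).injective).mp this
    refine ⟨⟨r, hrint⟩, Subtype.ext ?_⟩
    rw [← hr]
    rfl

attribute [local instance] isInvariant_OK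

theorem continuousSMul_K : @ContinuousSMul Gal(Qb/K) Zb _ _ ⊥ := by
  letI : TopologicalSpace Zb := ⊥
  haveI : DiscreteTopology Zb := ⟨rfl⟩
  rw [continuousSMul_iff_stabilizer_isOpen]
  intro b
  have h : (MulAction.stabilizer Gal(Qb/K) b : Set Gal(Qb/K)) =
      (MulAction.stabilizer Gal(Qb/K) (b : Qb) : Set Gal(Qb/K)) := by
    ext g
    simp only [SetLike.mem_coe, MulAction.mem_stabilizer_iff, Subtype.ext_iff,
      AlgEquiv.smul_def]
    rfl
  rw [h]
  exact stabilizer_isOpen_of_isIntegral (b : Qb)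


attribute [local instance] continuousSMul_K

/-- **Lifting lemma**. -/
theorem exists_mem_inertiaSubgroupIn_restrict {q : ℕ} (hq : q.Prime) (A : ValuationSubring Qb)
    (hA : A.LiesOverPrime q) (τ : Gal(K/ℚ))
    (hτ : τ ∈ ((center A).under (𝓞 K)).inertia Gal(K/ℚ)) :
    ∃ σ : GQ, σ ∈ A.inertiaSubgroupIn ℚ ∧ AlgEquiv.restrictNormalHom K σ = τ := by
  letI : TopologicalSpace Zb := ⊥
  haveI : DiscreteTopology Zb := ⟨rfl⟩
  set 𝔓 : Ideal Zb := center A with h𝔓
  set P : Ideal (𝓞 K) := 𝔓.under (𝓞 K) with hP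
  obtain ⟨σ₀, hσ₀⟩ := AlgEquiv.restrictNormalHom_surjective (F := ℚ) (K₁ := K) Qb τ
  -- `τ` stabilises `P`
  have hτP : τ • P = P := Ideal.inertia_le_stabilizer P hτ
  have hτinvP : ∀ x : 𝓞 K, τ⁻¹ • x ∈ P ↔ x ∈ P := by
    intro x
    rw [← Ideal.mem_pointwise_smul_iff_inv_smul_mem, hτP]
  -- step 2
  have hunder : (σ₀ • 𝔓).under (𝓞 K) = 𝔓.under (𝓞 K) := by
    ext x
    rw [Ideal.mem_comap, Ideal.mem_comap, Ideal.mem_pointwise_smul_iff_inv_smul_mem]
    rw [algebraMap_OK_apply, ← ιK_smul K σ₀⁻¹ x, map_inv, hσ₀]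
    exact hτinvP x
  haveI : (σ₀ • 𝔓).IsPrime := inferInstance
  obtain ⟨h, hh⟩ := Algebra.IsInvariant.exists_smul_of_under_eq_of_profinite
    (A := 𝓞 K) (B := Zb) (G := Gal(Qb/K)) (σ₀ • 𝔓) 𝔓 hunder
  set σ₁ : GQ := (AlgEquiv.restrictScalars ℚ h : GQ) * σ₀ with hσ₁
  have hσ₁𝔓 : σ₁ • 𝔓 = 𝔓 := by
    rw [hσ₁, mul_smul]
    exact hh.symm
  have hσ₁K : AlgEquiv.restrictNormalHom K σ₁ = τ := by
    rw [hσ₁, map_mul, restrictNormalHom_restrictScalars, one_mul, hσ₀]
  let e₁ : Zb ≃+* Zb := MulSemiringAction.toRingEquiv GQ Zb σ₁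
  have he₁ : 𝔓 = Ideal.map (e₁ : Zb →+* Zb) 𝔓 := hσ₁𝔓.symm
  let φr : (Zb ⧸ 𝔓) ≃+* (Zb ⧸ 𝔓) := Ideal.quotientEquiv 𝔓 𝔓 e₁ he₁
  haveI : 𝔓.LiesOver P := ⟨rfl⟩
  let φ : (Zb ⧸ 𝔓) ≃ₐ[𝓞 K ⧸ P] (Zb ⧸ 𝔓) := AlgEquiv.ofRingEquiv (f := φr) (by
    intro y
    obtain ⟨x, rfl⟩ := Ideal.Quotient.mk_surjective y
    rw [Ideal.Quotient.algebraMap_mk_of_liesOver]
    show Ideal.Quotient.mk 𝔓 (σ₁ • algebraMap (𝓞 K) Zb x) = _
    rw [algebraMap_OK_apply, ← ιK_smul, hσ₁K, Ideal.Quotient.eq, ← map_sub]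
    exact hτ x)
  obtain ⟨⟨h₂, hh₂⟩, hφ⟩ := Ideal.Quotient.stabilizerHom_surjective_of_profinite
    (G := Gal(Qb/K)) P 𝔓 φ
  rw [MulAction.mem_stabilizer_iff] at hh₂
  set h₂' : GQ := (AlgEquiv.restrictScalars ℚ h₂ : GQ) with hh₂'
  have hh₂𝔓 : h₂' • 𝔓 = 𝔓 := hh₂
  have hkey : ∀ c : Zb, h₂' • c - σ₁ • c ∈ 𝔓 := by
    intro c
    have := congrArg (fun f => f (Ideal.Quotient.mk 𝔓 c)) hφ
    rw [← Ideal.Quotient.eq]
    exact this
  refine ⟨h₂'⁻¹ * σ₁, ?_, ?_⟩
  · refine mem_inertiaSubgroupIn_of_center hq hA ?_ ?_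
    · rw [mul_smul, hσ₁𝔓, inv_smul_eq_iff, hh₂𝔓]
    · intro b
      -- c := h₂'⁻¹ • σ₁ • b
      have h1 := hkey (h₂'⁻¹ • σ₁ • b)
      rw [smul_inv_smul, ← smul_sub, ← hσ₁𝔓, Ideal.smul_mem_pointwise_smul_iff] at h1
      rw [mul_smul, ← neg_sub]
      exact 𝔓.neg_mem h1
  · rw [map_mul, map_inv, hh₂', restrictNormalHom_restrictScalars, inv_one, one_mul, hσ₁K]

omit [IsGalois ℚ K] in
/-- every non-zero prime of `𝓞 K` is the restriction of the centre of a valuation subring of
`ℚ̄` (lying over a rational prime). -/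
theorem exists_valuationSubring_under_eq (P : Ideal (𝓞 K)) [hPprime : P.IsPrime] (hP : P ≠ ⊥) :
    ∃ (q : ℕ) (A : ValuationSubring Qb), q.Prime ∧ A.LiesOverPrime q ∧
      (center A).under (𝓞 K) = P := by
  haveI : NeZero P := ⟨hP⟩
  have hq : (Ideal.absNorm (Ideal.under ℤ P)).Prime := Nat.absNorm_under_prime P
  have hqP : ((Ideal.absNorm (Ideal.under ℤ P) : ℕ) : 𝓞 K) ∈ P := Int.absNorm_under_mem P
  let f : 𝓞 K →+* Qb := (algebraMap K Qb).comp (algebraMap (𝓞 K) K)
  have hf : Function.Injective f :=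
    (algebraMap K Qb).injective.comp NumberField.RingOfIntegers.coe_injective
  let R : Subring Qb := f.range
  let I : Ideal R := P.map f.rangeRestrict
  have hI : I ≠ ⊤ := by
    intro h
    have h1 : (1 : R) ∈ I := h ▸ Submodule.mem_top
    rw [Ideal.mem_map_iff_of_surjective _ f.rangeRestrict_surjective] at h1
    obtain ⟨x, hx, hx1⟩ := h1
    have h2 : f x = 1 := congrArg Subtype.val hx1
    have h3 : x = 1 := hf (h2.trans (map_one f).symm)
    exact hPprime.ne_top ((Ideal.eq_top_iff_one _).mpr (h3 ▸ hx))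
  obtain ⟨A, -, hA⟩ := Ideal.image_subset_nonunits_valuationSubring I hI
  have hPle : P ≤ (center A).under (𝓞 K) := by
    intro x hx
    rw [Ideal.mem_comap, algebraMap_OK_apply, mem_center]
    exact hA ⟨f.rangeRestrict x, Ideal.mem_map_of_mem _ hx, rfl⟩
  refine ⟨_, A, hq, ?_, ?_⟩
  · have h4 := hPle hqP
    rw [Ideal.mem_comap, map_natCast, mem_center] at h4
    have h5 : ((Ideal.absNorm (Ideal.under ℤ P) : ℕ) : Qb) ∈ A.nonunits := by simpa using h4
    exact h5
  · have hmax : P.IsMaximal := Ideal.IsPrime.isMaximal hPprime hP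
    exact (hmax.eq_of_le (Ideal.IsPrime.ne_top inferInstance) hPle).symm

/-- restrictions of inertia elements are inertia elements at finite level. -/
theorem restrictNormalHom_mem_inertia (A : ValuationSubring Qb) {σ : GQ}
    (hσ : σ ∈ A.inertiaSubgroupIn ℚ) :
    AlgEquiv.restrictNormalHom K σ ∈ ((center A).under (𝓞 K)).inertia Gal(K/ℚ) := by
  intro x
  show (AlgEquiv.restrictNormalHom K σ) • x - x ∈ (center A).under (𝓞 K)
  rw [Ideal.mem_comap, map_sub, algebraMap_OK_apply, algebraMap_OK_apply, ιK_smul]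
  exact sub_mem_center_of_mem_inertiaSubgroupIn hσ _

/-- **The image of the Prelude inertia group in `Gal(K/ℚ)` is Mathlib's inertia group.** -/
theorem map_restrictNormalHom_inertiaSubgroupIn {q : ℕ} (hq : q.Prime)
    (A : ValuationSubring Qb) (hA : A.LiesOverPrime q) :
    (A.inertiaSubgroupIn ℚ).map (AlgEquiv.restrictNormalHom K) =
      ((center A).under (𝓞 K)).inertia Gal(K/ℚ) := by
  ext τ
  constructor
  · rintro ⟨σ, hσ, rfl⟩
    exact restrictNormalHom_mem_inertia K A hσ
  · intro hτ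
    obtain ⟨σ, hσ, hστ⟩ := exists_mem_inertiaSubgroupIn_restrict K hq A hA τ hτ
    exact ⟨σ, hσ, hστ⟩

/-- **Minkowski at infinite level**: a finite Galois subextension `K/ℚ` of `ℚ̄` on which all
inertia groups (of all valuation subrings of `ℚ̄` over all primes) act trivially is `ℚ`. -/
theorem eq_bot_of_forall_inertia_restrict_eq_one
    (H : ∀ (q : ℕ), q.Prime → ∀ A : ValuationSubring Qb, A.LiesOverPrime q →
      ∀ σ ∈ A.inertiaSubgroupIn ℚ, AlgEquiv.restrictNormalHom K σ = 1) : K = ⊥ := by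
  by_contra hK
  have h1 : 1 < Module.finrank ℚ K := by
    have hpos : 0 < Module.finrank ℚ K := Module.finrank_pos
    have hne : Module.finrank ℚ K ≠ 1 := fun h => hK (IntermediateField.finrank_eq_one_iff.mp h)
    omega
  obtain ⟨p, hp, hall⟩ := exists_prime_forall_inertia_ne_bot K h1
  obtain ⟨A, hA⟩ := exists_liesOverPrime hp
  have hpP : (p : 𝓞 K) ∈ (center A).under (𝓞 K) := by
    rw [Ideal.mem_comap, map_natCast, mem_center]
    exact hA
  obtain ⟨τ, hτ, hτ1⟩ := hall ((center A).under (𝓞 K)) inferInstance hpP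
  obtain ⟨σ, hσ, hστ⟩ := exists_mem_inertiaSubgroupIn_restrict K hp A hA τ hτ
  exact hτ1 (hστ ▸ H p hp A hA σ hσ)

end Lift

section Subgroup

/-- **Minkowski, subgroup form (normal case)**: an open normal subgroup of `G_ℚ` containing all
inertia groups is everything. -/
theorem eq_top_of_isOpen_of_normal_of_inertia_le (H : Subgroup GQ) [H.Normal]
    (hopen : IsOpen (H : Set GQ))
    (hI : ∀ (q : ℕ), q.Prime → ∀ A : ValuationSubring Qb, A.LiesOverPrime q →
      A.inertiaSubgroupIn ℚ ≤ H) : H = ⊤ := by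
  have hclosed : IsClosed (H : Set GQ) := H.isClosed_of_isOpen hopen
  set K : IntermediateField ℚ Qb := IntermediateField.fixedField H with hK
  have hfix : K.fixingSubgroup = H :=
    InfiniteGalois.fixingSubgroup_fixedField ⟨H, hclosed⟩
  haveI : FiniteDimensional ℚ K := by
    rw [← InfiniteGalois.isOpen_iff_finite, hfix]
    exact hopen
  haveI : IsGalois ℚ K := (InfiniteGalois.normal_iff_isGalois K).mp (hfix ▸ inferInstance)
  have hbot : K = ⊥ := by
    apply eq_bot_of_forall_inertia_restrict_eq_one K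
    intro q hq A hA σ hσ
    have h1 : σ ∈ K.fixingSubgroup := hfix ▸ hI q hq A hA hσ
    have h2 := IntermediateField.restrictNormalHom_ker K
    rw [← h2] at h1
    exact h1
  rw [← hfix, hbot, IntermediateField.fixingSubgroup_bot]

/-- **Minkowski, subgroup form (general case)**: an open subgroup of `G_ℚ` containing all
inertia groups is everything (equivalently: a number field unramified everywhere is `ℚ`). -/
theorem eq_top_of_isOpen_of_inertia_le (H : Subgroup GQ) (hopen : IsOpen (H : Set GQ))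
    (hI : ∀ (q : ℕ), q.Prime → ∀ A : ValuationSubring Qb, A.LiesOverPrime q →
      A.inertiaSubgroupIn ℚ ≤ H) : H = ⊤ := by
  obtain ⟨U, hU⟩ := ProfiniteGrp.exist_openNormalSubgroup_sub_open_nhds_of_one hopen H.one_mem
  have hUle : U.toSubgroup ≤ H.normalCore := by
    haveI : U.toSubgroup.Normal := U.isNormal'
    exact Subgroup.normal_le_normalCore.mpr hU
  have hNopen : IsOpen (H.normalCore : Set GQ) := Subgroup.isOpen_mono hUle U.isOpen'
  have hN : H.normalCore = ⊤ := by
    apply eq_top_of_isOpen_of_normal_of_inertia_le H.normalCore hNopen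
    intro q hq A hA σ hσ g
    exact hI q hq (g • A) (liesOverPrime_smul hA g) (conj_mem_inertiaSubgroupIn hq hA g hσ)
  exact top_unique (hN ▸ H.normalCore_le)

/-- **Everywhere unramified characters of `G_ℚ` are trivial**: a homomorphism from `G_ℚ` to any
group with open kernel that kills all inertia groups is trivial. -/
theorem monoidHom_eq_one_of_inertia {M : Type*} [Group M] (ψ : GQ →* M)
    (hopen : IsOpen (ψ.ker : Set GQ))
    (hI : ∀ (q : ℕ), q.Prime → ∀ A : ValuationSubring Qb, A.LiesOverPrime q →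
      ∀ σ ∈ A.inertiaSubgroupIn ℚ, ψ σ = 1) : ψ = 1 := by
  have h := eq_top_of_isOpen_of_normal_of_inertia_le ψ.ker hopen
    (fun q hq A hA σ hσ => MonoidHom.mem_ker.mpr (hI q hq A hA σ hσ))
  ext g
  have : g ∈ ψ.ker := h ▸ Subgroup.mem_top g
  exact MonoidHom.mem_ker.mp this

end Subgroup

end Fermat.Agent.Lib.InertiaGenerate
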