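import Mathlib
import Fermat.Prelude.Thm_ModularForm_sturm_bound_Gamma0
import Fermat.Prelude.Thm_CongruenceSubgroup_one_mem_strictPeriods_Gamma0

/-!
# q-expansion as an injective linear map and finite-dimensionality for `Γ₀(N)`

Reusable facts (all `N` with `NeZero N`, all weights `k : ℤ`):

* `qExpLin N k : ModularForm (Γ₀ N) k →ₗ[ℂ] PowerSeries ℂ`, `qExpLin_apply`, `qExpLin_injective`
* `cuspQExpLin N k : CuspForm (Γ₀ N) k →ₗ[ℂ] PowerSeries ℂ`, `cuspQExpLin_apply`,
  `cuspQExpLin_injective`
* `sturmTrunc_injective`: first `B+1` coefficients determine a modular form (Prelude Sturm bound)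
* `finiteDimensional_modularForm`, `finiteDimensional_cuspForm`
-/

set_option autoImplicit false

namespace Fermat.Agent.Lib.QExpFinDim

open UpperHalfPlane ModularFormClass
open scoped MatrixGroups

variable (N : ℕ) (k : ℤ)

theorem one_mem_strictPeriods :
    (1 : ℝ) ∈ (Subgroup.map (Matrix.SpecialLinearGroup.mapGL ℝ)
      (CongruenceSubgroup.Gamma0 N)).strictPeriods :=
  CongruenceSubgroup.one_mem_strictPeriods_Gamma0 N

/-- The width-one q-expansion as a `ℂ`-linear map on `ModularForm (Γ₀ N) k`. -/
noncomputable def qExpLin :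
    ModularForm (CongruenceSubgroup.Gamma0 N) k →ₗ[ℂ] PowerSeries ℂ where
  toFun f := qExpansion 1 f
  map_add' f g := by
    simpa using ModularForm.qExpansion_add one_pos (one_mem_strictPeriods N) f g
  map_smul' c f := by
    simpa using ModularForm.qExpansion_smul one_pos (one_mem_strictPeriods N) c f

@[simp] theorem qExpLin_apply (f : ModularForm (CongruenceSubgroup.Gamma0 N) k) :
    qExpLin N k f = qExpansion 1 f := rfl

theorem qExpLin_injective : Function.Injective (qExpLin N k) := by
  rw [← LinearMap.ker_eq_bot, LinearMap.ker_eq_bot']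
  intro f hf
  exact (ModularForm.qExpansion_eq_zero_iff one_pos (one_mem_strictPeriods N) f).mp hf

/-- The width-one q-expansion as a `ℂ`-linear map on `CuspForm (Γ₀ N) k`. -/
noncomputable def cuspQExpLin :
    CuspForm (CongruenceSubgroup.Gamma0 N) k →ₗ[ℂ] PowerSeries ℂ :=
  (qExpLin N k).comp CuspForm.toModularFormₗ

@[simp] theorem cuspQExpLin_apply (f : CuspForm (CongruenceSubgroup.Gamma0 N) k) :
    cuspQExpLin N k f = qExpansion 1 f := rfl

theorem cuspQExpLin_injective : Function.Injective (cuspQExpLin N k) :=
  (qExpLin_injective N k).comp CuspForm.toModularFormₗ_injective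

/-- The Sturm bound used by the Prelude for `Γ₀(N)` in weight `k`. -/
noncomputable def sturmBound : ℕ := (k * (CongruenceSubgroup.Gamma0 N).index).toNat / 12

/-- Truncation of the q-expansion to the first `sturmBound + 1` coefficients. -/
noncomputable def sturmTrunc :
    ModularForm (CongruenceSubgroup.Gamma0 N) k →ₗ[ℂ] (Fin (sturmBound N k + 1) → ℂ) where
  toFun f i := (qExpansion 1 f).coeff i
  map_add' f g := by
    funext i
    have h := ModularForm.qExpansion_add one_pos (one_mem_strictPeriods N) f g
    simp only [FunLike.coe_add, Pi.add_apply]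
    rw [h, map_add]
  map_smul' c f := by
    funext i
    have h := ModularForm.qExpansion_smul one_pos (one_mem_strictPeriods N) c f
    simp only [FunLike.coe_smul, Pi.smul_apply, RingHom.id_apply, smul_eq_mul]
    rw [h, PowerSeries.coeff_smul, smul_eq_mul]

theorem sturmTrunc_injective [NeZero N] : Function.Injective (sturmTrunc N k) := by
  rw [← LinearMap.ker_eq_bot, LinearMap.ker_eq_bot']
  intro f hf
  apply ModularForm.sturm_bound_Gamma0 N f
  intro n hn
  have := congrFun hf ⟨n, Nat.lt_succ_of_le hn⟩
  simpa [sturmTrunc] using this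

theorem finiteDimensional_modularForm [NeZero N] :
    FiniteDimensional ℂ (ModularForm (CongruenceSubgroup.Gamma0 N) k) :=
  FiniteDimensional.of_injective (sturmTrunc N k) (sturmTrunc_injective N k)

theorem finiteDimensional_cuspForm [NeZero N] :
    FiniteDimensional ℂ (CuspForm (CongruenceSubgroup.Gamma0 N) k) :=
  have := finiteDimensional_modularForm N k
  FiniteDimensional.of_injective CuspForm.toModularFormₗ CuspForm.toModularFormₗ_injective

end Fermat.Agent.Lib.QExpFinDim
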