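import Mathlib
import Fermat.Prelude.Def_CuspForm_HeckeAlgebra
import Fermat.Prelude.Def_CuspForm_IntegralStructure
import Fermat.Prelude.Thm_CuspForm_intLattice_fg
import Fermat.Prelude.Thm_CuspForm_mem_intLattice_of_mem_heckeAlgebra
import Fermat.Agent.Lib.QExpFinDim

/-!
# Assembly lemmas around `CuspForm.HasIntegralStructure`

* `hasIntegralStructure_of_span_qExp`: if the q-expansion image of `S_k(Γ₀(N))` is spanned over `ℂ`
  by power series with integer coefficients (lying in the image), then
  `CuspForm.HasIntegralStructure N k`.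
* `moduleFinite_heckeAlgebra_of_hasIntegralStructure`: `HasIntegralStructure N k` and `1 ≤ k` give
  `Module.Finite ℤ (CuspForm.heckeAlgebra N k S)`.
-/

set_option autoImplicit false

namespace Fermat.Agent.Lib.IntegralStructureAssembly

open Fermat.Agent.Lib.QExpFinDim

variable (N : ℕ) (k : ℤ)

/-- The set of power series with integer coefficients. -/
def intSeries : Set (PowerSeries ℂ) := {a | ∀ n : ℕ, ∃ m : ℤ, PowerSeries.coeff n a = (m : ℂ)}

/-- The q-expansion image of the cusp forms. -/
noncomputable def cuspQExpRange : Submodule ℂ (PowerSeries ℂ) := LinearMap.range (cuspQExpLin N k)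

theorem hasIntegralStructure_of_span_qExp
    (h : cuspQExpRange N k ≤
      Submodule.span ℂ ((cuspQExpRange N k : Set (PowerSeries ℂ)) ∩ intSeries)) :
    CuspForm.HasIntegralStructure N k := by
  unfold CuspForm.HasIntegralStructure
  -- the generating set of integral forms
  set S : Set (CuspForm (CongruenceSubgroup.Gamma0 N) k) :=
    {f | ∀ n : ℕ, ∃ m : ℤ, ModularFormClass.qCoeff f n = (m : ℂ)} with hS
  have hSsub : S ⊆ (CuspForm.intLattice N k : Set _) := fun f hf => Submodule.subset_span hf
  have hle : Submodule.span ℂ S ≤ Submodule.span ℂ (CuspForm.intLattice N k : Set _) :=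
    Submodule.span_mono hSsub
  suffices hS' : Submodule.span ℂ S = ⊤ by
    rw [eq_top_iff, ← hS']; exact hle
  -- push forward along the injective q-expansion map
  apply Submodule.map_injective_of_injective (cuspQExpLin_injective N k)
  rw [Submodule.map_span, Submodule.map_top]
  apply le_antisymm
  · rw [Submodule.span_le]
    rintro _ ⟨f, -, rfl⟩
    exact LinearMap.mem_range_self _ f
  · refine le_trans h (Submodule.span_mono ?_)
    rintro a ⟨⟨f, rfl⟩, ha⟩
    refine ⟨f, ?_, rfl⟩
    intro n
    obtain ⟨m, hm⟩ := ha n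
    exact ⟨m, hm⟩

/-- Restriction of a Hecke algebra element to the integral lattice. -/
theorem moduleFinite_heckeAlgebra_of_hasIntegralStructure [NeZero N] (hk : 1 ≤ k) (S : Set ℕ)
    (h : CuspForm.HasIntegralStructure N k) :
    Module.Finite ℤ (CuspForm.heckeAlgebra N k S) := by
  classical
  set L := CuspForm.intLattice N k with hL
  have : Module.Finite ℤ L := Module.Finite.iff_fg.mpr (CuspForm.intLattice_fg N k)
  -- the restriction map T → End_ℤ(L)
  let res : CuspForm.heckeAlgebra N k S →ₗ[ℤ] (L →ₗ[ℤ] L) :=
    { toFun := fun t =>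
        { toFun := fun x => ⟨(t : Module.End ℂ (CuspForm (CongruenceSubgroup.Gamma0 N) k)) x.1,
            CuspForm.mem_intLattice_of_mem_heckeAlgebra hk t.2 x.2⟩
          map_add' := fun x y => by ext; simp
          map_smul' := fun c x => by ext; simp }
      map_add' := fun t u => by ext x; simp
      map_smul' := fun c t => by ext x; simp }
  have hinj : Function.Injective res := by
    rw [← LinearMap.ker_eq_bot, LinearMap.ker_eq_bot']
    intro t ht
    apply Subtype.ext
    -- t vanishes on L hence on its ℂ-span = ⊤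
    have hzero : ∀ x ∈ (L : Set _), (t : Module.End ℂ (CuspForm (CongruenceSubgroup.Gamma0 N) k)) x = 0 := by
      intro x hx
      have := congrArg (fun g : L →ₗ[ℤ] L => (g ⟨x, hx⟩ : CuspForm (CongruenceSubgroup.Gamma0 N) k)) ht
      simpa [res] using this
    have hspan : Submodule.span ℂ (L : Set _) ≤ LinearMap.ker (t : Module.End ℂ (CuspForm (CongruenceSubgroup.Gamma0 N) k)) :=
      Submodule.span_le.mpr fun x hx => LinearMap.mem_ker.mpr (hzero x hx)
    have htop : LinearMap.ker (t : Module.End ℂ (CuspForm (CongruenceSubgroup.Gamma0 N) k)) = ⊤ := by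
      rw [eq_top_iff, ← h]; exact hspan
    exact LinearMap.ker_eq_top.mp htop
  exact Module.Finite.of_injective res hinj

/-- Cusp forms of weight `k ≤ 0` on `Γ₀(N)` vanish (Prelude Sturm bound). -/
theorem cuspForm_eq_zero_of_nonpos [NeZero N] (hk : k ≤ 0)
    (f : CuspForm (CongruenceSubgroup.Gamma0 N) k) : f = 0 := by
  have hzero : (CuspForm.toModularFormₗ f) = 0 := by
    apply ModularForm.sturm_bound_Gamma0 N
    intro n hn
    have hb : (k * ((CongruenceSubgroup.Gamma0 N).index : ℤ)).toNat = 0 := by
      apply Int.toNat_of_nonpos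
      exact mul_nonpos_of_nonpos_of_nonneg hk (Int.natCast_nonneg _)
    have hn0 : n = 0 := by
      rw [hb] at hn
      simpa using hn
    subst hn0
    exact CuspFormClass.qExpansion_coeff_zero
      (Γ := (Subgroup.map (Matrix.SpecialLinearGroup.mapGL ℝ) (CongruenceSubgroup.Gamma0 N)))
      (k := k) f one_pos (one_mem_strictPeriods N)
  exact CuspForm.toModularFormₗ_injective (by simpa using hzero)

/-- If the space of cusp forms is trivial, the Hecke algebra is (trivially) finite over `ℤ`. -/
theorem moduleFinite_heckeAlgebra_of_subsingleton [NeZero N] (S : Set ℕ)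
    (h : Subsingleton (CuspForm (CongruenceSubgroup.Gamma0 N) k)) :
    Module.Finite ℤ (CuspForm.heckeAlgebra N k S) := by
  have : Subsingleton (Module.End ℂ (CuspForm (CongruenceSubgroup.Gamma0 N) k)) :=
    ⟨fun a b => LinearMap.ext fun x => Subsingleton.elim _ _⟩
  have : Subsingleton (CuspForm.heckeAlgebra N k S) :=
    ⟨fun a b => Subtype.ext (Subsingleton.elim _ _)⟩
  infer_instance

/-- `HasIntegralStructure N k` for all `k ≥ 1` gives the finiteness of all Hecke algebras of
level `N` (all weights, all `S`), i.e. the statement S22 at level `N`. -/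
theorem moduleFinite_heckeAlgebra_of_forall_hasIntegralStructure [NeZero N]
    (h : ∀ k : ℤ, 1 ≤ k → CuspForm.HasIntegralStructure N k) (k : ℤ) (S : Set ℕ) :
    Module.Finite ℤ (CuspForm.heckeAlgebra N k S) := by
  rcases le_or_gt 1 k with hk | hk
  · exact moduleFinite_heckeAlgebra_of_hasIntegralStructure N k hk S (h k hk)
  · apply moduleFinite_heckeAlgebra_of_subsingleton N k S
    exact ⟨fun a b => by
      rw [cuspForm_eq_zero_of_nonpos N k (by omega) a, cuspForm_eq_zero_of_nonpos N k (by omega) b]⟩

end Fermat.Agent.Lib.IntegralStructureAssembly
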